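import Fermat.Agent.CohenLenstra.Gaussian
import Mathlib.GroupTheory.IndexNSmul
import Mathlib.LinearAlgebra.FreeModule.PID
import Mathlib.Algebra.Module.Submodule.RestrictScalars

/-!
# Surjections, subgroups with given quotient, and isomorphism classes

`#Sur (ℤ ^ n, A) = #{L : ℤ ^ n / L ≅ A} · #Aut A` is asymptotically `|A| ^ n`. Isomorphism classes
of groups of order `p ^ k` are classes of subgroups of index `p ^ k` of a fixed `ℤ ^ N`, and the
subgroups of index `p ^ m` under a surjection to `H` are counted by the Gaussian coefficient.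
-/

set_option autoImplicit false
set_option linter.style.haveILetI false

noncomputable section

open Finset Filter Topology
open FA.SLnVolume (idxSet idxCount finite_idxSet)

namespace FA.CohenLenstra

/-- The surjective homomorphisms. -/
abbrev Sur (A B : Type*) [AddCommGroup A] [AddCommGroup B] :=
  {f : A →+ B // Function.Surjective f}

/-- The subgroups of `ℤ ^ n` with quotient isomorphic to `A`. -/
abbrev WithQuotient (n : ℕ) (A : Type*) [AddCommGroup A] :=
  {L : AddSubgroup (Fin n → ℤ) // Nonempty ((Fin n → ℤ) ⧸ L ≃+ A)}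

/-- A homomorphism from `ℤ ^ n` is given by the images of the basis. -/
def homEquiv (n : ℕ) (A : Type*) [AddCommGroup A] : ((Fin n → ℤ) →+ A) ≃ (Fin n → A) :=
  ((addMonoidHomLequivInt ℤ).toEquiv).trans ((Pi.basisFun ℤ (Fin n)).constr ℤ).symm.toEquiv

instance finite_hom (n : ℕ) (A : Type*) [AddCommGroup A] [Finite A] :
    Finite ((Fin n → ℤ) →+ A) :=
  Finite.of_equiv _ (homEquiv n A).symm

theorem card_hom (n : ℕ) (A : Type*) [AddCommGroup A] :
    Nat.card ((Fin n → ℤ) →+ A) = Nat.card A ^ n := by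
  rw [Nat.card_congr (homEquiv n A), Nat.card_fun, Nat.card_fin]

/-- The automorphisms of a finite group are finitely many. -/
instance finite_addAut (A : Type*) [AddCommGroup A] [Finite A] : Finite (AddAut A) :=
  Finite.of_injective (fun e : AddAut A => (e : A → A)) DFunLike.coe_injective

theorem card_addAut_pos (A : Type*) [AddCommGroup A] [Finite A] : 0 < Nat.card (AddAut A) :=
  Nat.card_pos

theorem card_addAut_congr {A B : Type*} [AddCommGroup A] [AddCommGroup B] (e : A ≃+ B) :
    Nat.card (AddAut A) = Nat.card (AddAut B) :=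
  Nat.card_congr ⟨fun f => e.symm.trans (f.trans e), fun f => e.trans (f.trans e.symm),
    fun f => AddEquiv.ext fun x => by simp, fun f => AddEquiv.ext fun x => by simp⟩

theorem card_sur_congr {A A' B : Type*} [AddCommGroup A] [AddCommGroup A'] [AddCommGroup B]
    (e : A ≃+ A') : Nat.card (Sur A B) = Nat.card (Sur A' B) :=
  Nat.card_congr ⟨fun f => ⟨f.1.comp e.symm.toAddMonoidHom, f.2.comp e.symm.surjective⟩,
    fun f => ⟨f.1.comp e.toAddMonoidHom, f.2.comp e.surjective⟩,
    fun f => Subtype.ext (AddMonoidHom.ext fun x => by simp),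
    fun f => Subtype.ext (AddMonoidHom.ext fun x => by simp)⟩

/-- **Surjections and subgroups with given quotient.** -/
theorem card_sur (n : ℕ) (A : Type*) [AddCommGroup A] :
    Nat.card (Sur (Fin n → ℤ) A) = Nat.card (WithQuotient n A) * Nat.card (AddAut A) := by
  classical
  rw [← Nat.card_prod]
  refine (Nat.card_congr (Equiv.ofBijective (fun x : WithQuotient n A × AddAut A =>
    (⟨(x.2.toAddMonoidHom.comp x.1.2.some.toAddMonoidHom).comp (QuotientAddGroup.mk' x.1.1),
      (x.2.surjective.comp x.1.2.some.surjective).comp (QuotientAddGroup.mk'_surjective _)⟩ :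
      Sur (Fin n → ℤ) A)) ⟨?_, fun f => ?_⟩)).symm
  · rintro ⟨L, a⟩ ⟨M, b⟩ h
    have h' := congrArg Subtype.val h
    have hL : ∀ (L : WithQuotient n A) (a : AddAut A), ((a.toAddMonoidHom.comp
        L.2.some.toAddMonoidHom).comp (QuotientAddGroup.mk' L.1)).ker = L.1 := fun L a => by
      ext x
      simp [QuotientAddGroup.eq_zero_iff]
    obtain rfl : L = M := Subtype.ext ((hL L a).symm.trans ((congrArg AddMonoidHom.ker h').trans
      (hL M b)))
    refine Prod.ext rfl (AddEquiv.ext fun y => ?_)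
    obtain ⟨z, rfl⟩ := (L.2.some.surjective.comp (QuotientAddGroup.mk'_surjective _)) y
    exact DFunLike.congr_fun h' z
  · set e := QuotientAddGroup.quotientKerEquivOfSurjective f.1 f.2
    refine ⟨(⟨f.1.ker, ⟨e⟩⟩, (Classical.choice (⟨e⟩ : Nonempty _)).symm.trans e),
      Subtype.ext (AddMonoidHom.ext fun x => ?_)⟩
    simp [e, QuotientAddGroup.quotientKerEquivOfSurjective]

/-- Surjections are almost all homomorphisms. -/
theorem tendsto_card_sur (A : Type*) [AddCommGroup A] [Finite A] :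
    Tendsto (fun n => (Nat.card (Sur (Fin n → ℤ) A) : ℝ) / (Nat.card A : ℝ) ^ n) atTop (𝓝 1) := by
  classical
  haveI := Fintype.ofFinite (AddSubgroup A)
  have hA : (0 : ℝ) < Nat.card A := by exact_mod_cast Nat.card_pos
  have hbad : ∀ n, (Nat.card ((Fin n → ℤ) →+ A) : ℝ) ≤ Nat.card (Sur (Fin n → ℤ) A) +
      Fintype.card (AddSubgroup A) * ((Nat.card A : ℝ) / 2) ^ n := fun n => by
    have h1 : Nat.card ((Fin n → ℤ) →+ A) =
        Nat.card (Sur (Fin n → ℤ) A) +
          Nat.card {f : (Fin n → ℤ) →+ A // ¬ Function.Surjective f} := by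
      rw [← Nat.card_sum, Nat.card_congr (Equiv.sumCompl _)]
    let pack : {f : (Fin n → ℤ) →+ A // ¬ Function.Surjective f} →
        (K : {K : AddSubgroup A // K ≠ ⊤}) × ((Fin n → ℤ) →+ K.1) := fun f =>
      ⟨⟨f.1.range, fun h => f.2 (AddMonoidHom.range_eq_top.1 h)⟩, f.1.rangeRestrict⟩
    have hpack : Function.Injective pack := fun f g hfg => Subtype.ext (congrArg
      (fun x : (K : {K : AddSubgroup A // K ≠ ⊤}) × ((Fin n → ℤ) →+ K.1) => x.1.1.subtype.comp x.2)
      hfg :)
    have h2 := Nat.card_le_card_of_injective pack hpack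
    rw [Nat.card_sigma] at h2
    have h3 : (Nat.card {f : (Fin n → ℤ) →+ A // ¬ Function.Surjective f} : ℝ) ≤
        Fintype.card (AddSubgroup A) * ((Nat.card A : ℝ) / 2) ^ n := by
      refine le_trans (Nat.cast_le.2 h2) ?_
      rw [Nat.cast_sum]
      refine le_trans (Finset.sum_le_card_nsmul _ _ (((Nat.card A : ℝ) / 2) ^ n) fun K _ => ?_) ?_
      · rw [card_hom, Nat.cast_pow]
        refine pow_le_pow_left₀ (Nat.cast_nonneg _) ?_ n
        have hi := K.1.index_mul_card
        have h2i : 2 ≤ K.1.index := by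
          have := AddSubgroup.index_ne_zero_of_finite (H := K.1)
          have := mt AddSubgroup.index_eq_one.1 K.2
          omega
        have : 2 * Nat.card K.1 ≤ Nat.card A := hi ▸ Nat.mul_le_mul h2i le_rfl
        rw [le_div_iff₀ two_pos, mul_comm]
        exact_mod_cast this
      · rw [nsmul_eq_mul]
        refine mul_le_mul_of_nonneg_right ?_ (by positivity)
        exact_mod_cast Fintype.card_subtype_le _
    rw [h1, Nat.cast_add]
    linarith
  refine tendsto_of_tendsto_of_tendsto_of_le_of_le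
    (g := fun n : ℕ => 1 - (Fintype.card (AddSubgroup A) : ℝ) * (1 / 2) ^ n)
    (h := fun _ => (1 : ℝ)) ?_ tendsto_const_nhds (fun n => ?_) (fun n => ?_)
  · simpa using tendsto_const_nhds.sub
      ((tendsto_pow_atTop_nhds_zero_of_lt_one (by norm_num : (0 : ℝ) ≤ 1 / 2)
        (by norm_num)).const_mul (Fintype.card (AddSubgroup A) : ℝ))
  · have h := hbad n
    rw [card_hom, Nat.cast_pow, div_pow] at h
    rw [le_div_iff₀ (pow_pos hA n)]
    simp only [one_div_pow, sub_mul, one_mul]
    have e : (Fintype.card (AddSubgroup A) : ℝ) * (1 / 2 ^ n) * (Nat.card A : ℝ) ^ n =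
        Fintype.card (AddSubgroup A) * ((Nat.card A : ℝ) ^ n / 2 ^ n) := by ring
    linarith
  · rw [div_le_one (pow_pos hA n), ← Nat.cast_pow, ← card_hom]
    exact_mod_cast Nat.card_le_card_of_injective _ Subtype.val_injective

variable {p : ℕ} [hp : Fact p.Prime]

/-- The subgroups of index `p ^ k` of a fixed large lattice. -/
abbrev Model (p k : ℕ) := idxSet (p ^ k) (p ^ k)

instance classSetoid (k : ℕ) : Setoid (Model p k) where
  r L M := Nonempty ((Fin (p ^ k) → ℤ) ⧸ (L : AddSubgroup (Fin (p ^ k) → ℤ)) ≃+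
    (Fin (p ^ k) → ℤ) ⧸ (M : AddSubgroup (Fin (p ^ k) → ℤ)))
  iseqv := ⟨fun _ => ⟨AddEquiv.refl _⟩, fun ⟨e⟩ => ⟨e.symm⟩, fun ⟨e⟩ ⟨f⟩ => ⟨e.trans f⟩⟩

/-- **The isomorphism classes of abelian groups of order `p ^ k`.** -/
def Cls (p : ℕ) [Fact p.Prime] (k : ℕ) : Type := Quotient (classSetoid (p := p) k)

instance (k : ℕ) : Finite (Cls p k) := by
  haveI : Finite (Model p k) := (finite_idxSet (pow_ne_zero k hp.out.ne_zero)).to_subtype
  exact Finite.of_surjective _ Quotient.mk_surjective

/-- A group in the class. -/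
abbrev Rep {k : ℕ} (c : Cls p k) : Type :=
  (Fin (p ^ k) → ℤ) ⧸ ((Quotient.out c : Model p k) : AddSubgroup (Fin (p ^ k) → ℤ))

theorem card_rep {k : ℕ} (c : Cls p k) : Nat.card (Rep c) = p ^ k := by
  rw [← AddSubgroup.index_eq_card]
  exact (Quotient.out c : Model p k).2

instance {k : ℕ} (c : Cls p k) : Finite (Rep c) :=
  Nat.finite_of_card_ne_zero (by rw [card_rep]; exact pow_ne_zero k hp.out.ne_zero)

/-- **Every group of order `p ^ k` is in exactly one class.** -/
theorem existsUnique_cls {k : ℕ} (A : Type*) [AddCommGroup A] (hA : Nat.card A = p ^ k) :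
    ∃! c : Cls p k, Nonempty (Rep c ≃+ A) := by
  haveI : Finite A := Nat.finite_of_card_ne_zero (hA ▸ pow_ne_zero k hp.out.ne_zero)
  set g : Fin (p ^ k) ≃ A := (finCongr hA.symm).trans (Finite.equivFin A).symm
  set f := (homEquiv (p ^ k) A).symm g
  have hf : Function.Surjective f := fun a => by
    refine ⟨Pi.single (g.symm a) 1, ?_⟩
    have h : homEquiv (p ^ k) A f = g := Equiv.apply_symm_apply _ _
    have key : ∀ i, f (Pi.single i 1) = g i := fun i => by
      rw [← congrFun h i]
      simp [homEquiv]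
    rw [key, Equiv.apply_symm_apply]
  set e := QuotientAddGroup.quotientKerEquivOfSurjective f hf
  have hidx : f.ker ∈ idxSet (p ^ k) (p ^ k) := by
    show f.ker.index = p ^ k
    rw [AddSubgroup.index_eq_card, Nat.card_congr e.toEquiv, hA]
  refine ⟨Quotient.mk _ ⟨f.ker, hidx⟩, ?_, fun c ⟨e'⟩ => ?_⟩
  · obtain ⟨e'⟩ := Quotient.exact (Quotient.out_eq (Quotient.mk (classSetoid k) ⟨f.ker, hidx⟩))
    exact ⟨e'.trans e⟩
  · rw [← Quotient.out_eq c]
    exact Quotient.sound ⟨e'.trans e.symm⟩

omit hp in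
/-- The index of a subgroup with given quotient. -/
theorem WithQuotient.index_eq {n : ℕ} {A : Type*} [AddCommGroup A] (L : WithQuotient n A) :
    L.1.index = Nat.card A := by
  rw [AddSubgroup.index_eq_card, Nat.card_congr L.2.some.toEquiv]

omit hp in
theorem finite_withQuotient (n : ℕ) (A : Type*) [AddCommGroup A] [Finite A] :
    Finite (WithQuotient n A) := by
  haveI : Finite (idxSet n (Nat.card A)) := (finite_idxSet Nat.card_pos.ne').to_subtype
  exact Finite.of_injective (fun L => (⟨L.1, WithQuotient.index_eq L⟩ : idxSet n (Nat.card A)))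
    fun a b h => Subtype.ext (congrArg Subtype.val h :)

/-- Subgroups of index `p ^ k` sorted by the class of the quotient. -/
theorem sum_card_withQuotient [∀ k, Fintype (Cls p k)] (n k : ℕ) :
    ∑ c : Cls p k, Nat.card (WithQuotient n (Rep c)) = idxCount n (p ^ k) := by
  haveI : ∀ c : Cls p k, Finite (WithQuotient n (Rep c)) := fun c => finite_withQuotient n _
  rw [← Nat.card_sigma, idxCount, ← Nat.card_coe_set_eq]
  refine Nat.card_congr (Equiv.ofBijective (fun x => ⟨x.2.1, ?_⟩) ⟨?_, fun L => ?_⟩)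
  · show x.2.1.index = p ^ k
    rw [AddSubgroup.index_eq_card, Nat.card_congr x.2.2.some.toEquiv, card_rep]
  · rintro ⟨c, L⟩ ⟨d, M⟩ h
    obtain rfl : c = d := (existsUnique_cls ((Fin n → ℤ) ⧸ L.1)
      (by rw [Nat.card_congr L.2.some.toEquiv, card_rep])).unique ⟨L.2.some.symm⟩
        ⟨((QuotientAddGroup.quotientAddEquivOfEq (Subtype.ext_iff.1 h)).trans M.2.some).symm⟩
    exact congrArg _ (Subtype.ext (Subtype.ext_iff.1 h :))
  · have hL : L.1.index = p ^ k := L.2
    obtain ⟨c, ⟨e⟩, -⟩ := existsUnique_cls ((Fin n → ℤ) ⧸ L.1)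
      (by rw [← AddSubgroup.index_eq_card, hL])
    exact ⟨⟨c, ⟨L.1, ⟨e.symm⟩⟩⟩, rfl⟩

/-- A subgroup of finite index of `ℤ ^ n` is a copy of `ℤ ^ n`. -/
theorem nonempty_equiv_of_index {n : ℕ} (K : AddSubgroup (Fin n → ℤ)) (hK : K.index ≠ 0) :
    Nonempty ((Fin n → ℤ) ≃+ K) := by
  haveI : K.FiniteIndex := ⟨hK⟩
  obtain ⟨m, b⟩ := Submodule.basisOfPid (Pi.basisFun ℤ (Fin n)) K.toIntSubmodule
  have hm : m = n := by
    have h := AddSubgroup.finrank_eq_of_finiteIndex K
    rw [Module.finrank_fin_fun] at h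
    rw [← h, ← (Fintype.card_fin m), ← Module.finrank_eq_card_basis b]
    rfl
  subst hm
  exact ⟨b.equivFun.symm.toAddEquiv⟩

/-- A class, a subgroup with that quotient and a surjection of the quotient give a surjection of
the lattice and a subgroup below its kernel. -/
def pairMap (n : ℕ) (H : Type*) [AddCommGroup H] (m : ℕ)
    (x : (c : Cls p m) × (WithQuotient n (Rep c) × Sur (Rep c) H)) :
    (g : Sur (Fin n → ℤ) H) ×
      {L : AddSubgroup (Fin n → ℤ) // L.index = p ^ m ∧ L ≤ g.1.ker} :=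
  ⟨⟨(x.2.2.1.comp x.2.1.2.some.toAddMonoidHom).comp (QuotientAddGroup.mk' x.2.1.1),
      (x.2.2.2.comp x.2.1.2.some.surjective).comp (QuotientAddGroup.mk'_surjective _)⟩,
    ⟨x.2.1.1, (WithQuotient.index_eq x.2.1).trans (card_rep x.1), fun v hv => by
      rw [AddMonoidHom.mem_ker, AddMonoidHom.comp_apply, QuotientAddGroup.mk'_apply,
        (QuotientAddGroup.eq_zero_iff v).2 hv, map_zero]⟩⟩

theorem pairMap_bijective (n : ℕ) (H : Type*) [AddCommGroup H] (m : ℕ) :
    Function.Bijective (pairMap (p := p) n H m) := by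
  refine ⟨?_, ?_⟩
  · rintro ⟨c, L, φ⟩ ⟨d, M, ψ⟩ he
    have hLM : L.1 = M.1 := congrArg (fun z => z.2.1) he
    obtain rfl : c = d := (existsUnique_cls ((Fin n → ℤ) ⧸ L.1)
      (by rw [Nat.card_congr L.2.some.toEquiv, card_rep])).unique ⟨L.2.some.symm⟩
        ⟨((QuotientAddGroup.quotientAddEquivOfEq hLM).trans M.2.some).symm⟩
    obtain rfl : L = M := Subtype.ext hLM
    have hg := congrArg (fun z => z.1.1) he
    refine congrArg _ (Prod.ext rfl (Subtype.ext (AddMonoidHom.ext fun y => ?_)))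
    obtain ⟨v, rfl⟩ := (L.2.some.surjective.comp (QuotientAddGroup.mk'_surjective _)) y
    exact DFunLike.congr_fun hg v
  · rintro ⟨g, L, hL, hle⟩
    obtain ⟨c, ⟨e⟩, -⟩ := existsUnique_cls (p := p) ((Fin n → ℤ) ⧸ L)
      (by rw [← AddSubgroup.index_eq_card, hL])
    set W : WithQuotient n (Rep c) := ⟨L, ⟨e.symm⟩⟩
    set φ := (QuotientAddGroup.lift L g.1 hle).comp W.2.some.symm.toAddMonoidHom
    have hφ : Function.Surjective φ := fun y => by
      obtain ⟨v, rfl⟩ := g.2 y
      exact ⟨W.2.some (QuotientAddGroup.mk v), by simp [φ]⟩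
    refine ⟨⟨c, W, φ, hφ⟩, Sigma.subtype_ext (Subtype.ext (AddMonoidHom.ext fun v => ?_)) rfl⟩
    show φ (W.2.some (QuotientAddGroup.mk v)) = g.1 v
    simp [φ]

/-- **Subgroups of index `p ^ (h + j)` below a surjection.** -/
theorem sum_card_withQuotient_mul_sur [∀ k, Fintype (Cls p k)] (n : ℕ) (H : Type*)
    [AddCommGroup H] {h : ℕ} (hH : Nat.card H = p ^ h) (j : ℕ) :
    ∑ c : Cls p (h + j), Nat.card (WithQuotient n (Rep c)) * Nat.card (Sur (Rep c) H) =
      Nat.card (Sur (Fin n → ℤ) H) * idxCount n (p ^ j) := by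
  classical
  haveI : Finite H := Nat.finite_of_card_ne_zero (hH ▸ pow_ne_zero h hp.out.ne_zero)
  haveI : Fintype (Sur (Fin n → ℤ) H) := Fintype.ofFinite _
  haveI : ∀ g : Sur (Fin n → ℤ) H,
      Finite {L : AddSubgroup (Fin n → ℤ) // L.index = p ^ (h + j) ∧ L ≤ g.1.ker} := fun g =>
    haveI : Finite (idxSet n (p ^ (h + j))) :=
      (finite_idxSet (pow_ne_zero _ hp.out.ne_zero)).to_subtype
    Finite.of_injective (fun L => (⟨L.1, L.2.1⟩ : idxSet n (p ^ (h + j))))
      fun a b e => Subtype.ext (congrArg Subtype.val e :)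
  have hfib : ∀ g : Sur (Fin n → ℤ) H,
      Nat.card {L : AddSubgroup (Fin n → ℤ) // L.index = p ^ (h + j) ∧ L ≤ g.1.ker} =
        idxCount n (p ^ j) := fun g => by
    have hker : g.1.ker.index = p ^ h := by
      rw [AddSubgroup.index_eq_card,
        Nat.card_congr (QuotientAddGroup.quotientKerEquivOfSurjective g.1 g.2).toEquiv, hH]
    obtain ⟨e⟩ := nonempty_equiv_of_index g.1.ker (hker ▸ pow_ne_zero h hp.out.ne_zero)
    set ι := g.1.ker.subtype.comp e.toAddMonoidHom
    have hι : Function.Injective ι := Subtype.val_injective.comp e.injective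
    have hrange : ι.range = g.1.ker := by
      rw [AddMonoidHom.range_comp, AddMonoidHom.range_eq_top.2 e.surjective,
        ← AddMonoidHom.range_eq_map, AddSubgroup.range_subtype]
    have hmap : ∀ M : AddSubgroup (Fin n → ℤ), (M.map ι).index = M.index * p ^ h := fun M => by
      rw [AddSubgroup.index_map_of_injective M hι, hrange, hker]
    rw [idxCount, ← Nat.card_coe_set_eq]
    let Φ : idxSet n (p ^ j) →
        {L : AddSubgroup (Fin n → ℤ) // L.index = p ^ (h + j) ∧ L ≤ g.1.ker} := fun M =>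
      ⟨M.1.map ι, by rw [hmap, show M.1.index = p ^ j from M.2, ← pow_add, add_comm],
        hrange ▸ AddSubgroup.map_le_range ι M.1⟩
    refine (Nat.card_congr (Equiv.ofBijective Φ
      ⟨fun M N hMN => Subtype.ext (AddSubgroup.map_injective hι (congrArg Subtype.val hMN)),
        fun L => ?_⟩)).symm
    · have hL : (L.1.comap ι).map ι = L.1 := by
        rw [AddSubgroup.map_comap_eq, hrange, inf_eq_right.2 L.2.2]
      refine ⟨⟨L.1.comap ι, ?_⟩, Subtype.ext hL⟩
      have := hmap (L.1.comap ι)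
      rw [hL, L.2.1] at this
      refine (Nat.eq_of_mul_eq_mul_right (pow_pos hp.out.pos h)
        (?_ : p ^ j * p ^ h = (L.1.comap ι).index * p ^ h)).symm
      rw [← this, ← pow_add, add_comm]
  haveI : ∀ c : Cls p (h + j), Finite (WithQuotient n (Rep c)) := fun c => finite_withQuotient n _
  haveI : ∀ c : Cls p (h + j), Finite (Sur (Rep c) H) := fun c =>
    Finite.of_injective (fun f => ⇑f.1) fun a b e => Subtype.ext (DFunLike.coe_injective e)
  rw [Finset.sum_congr rfl fun c _ => (Nat.card_prod _ _).symm, ← Nat.card_sigma,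
    Nat.card_congr (Equiv.ofBijective _ (pairMap_bijective n H (h + j))), Nat.card_sigma,
    Finset.sum_congr rfl fun g _ => hfib g, Finset.sum_const, Finset.card_univ, smul_eq_mul,
    Nat.card_eq_fintype_card]

end FA.CohenLenstra

end
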