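import Fermat.Agent.SLnVolume.Subgroups
import Mathlib.Analysis.SpecialFunctions.Log.Summable
import Mathlib.Analysis.SpecificLimits.Normed
import Mathlib.Topology.Algebra.InfiniteSum.Real
import Mathlib.Tactic.FieldSimp
import Mathlib.Tactic.LinearCombination

/-!
# Subgroups of prime power index of `ℤ ^ n` and the Euler product

The number of subgroups of index `p ^ k` of `ℤ ^ n` is a Gaussian binomial coefficient; divided by
`p ^ (k n)` it tends to a number whose sum over `k` is the inverse of `∏ (1 - p ^ (-i))`.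
-/

set_option autoImplicit false

noncomputable section

open Finset Filter Topology
open FA.SLnVolume (idxSet idxCount idxCount_zero idxCount_succ)

namespace FA.CohenLenstra

variable {p : ℕ}

/-- Pascal's rule. -/
theorem idxCount_pow_succ (hp : p.Prime) (n k : ℕ) :
    idxCount (n + 1) (p ^ (k + 1)) =
      idxCount (n + 1) (p ^ k) + p ^ (k + 1) * idxCount n (p ^ (k + 1)) := by
  have key : ∀ m, idxCount (n + 1) (p ^ m) = ∑ j ∈ range (m + 1), p ^ j * idxCount n (p ^ j) :=
    fun m => by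
      rw [idxCount_succ n (pow_ne_zero m hp.ne_zero),
        Nat.sum_divisorsAntidiagonal' (fun _ f => f * idxCount n f),
        Nat.sum_divisors_prime_pow hp]
  rw [key, key, Finset.sum_range_succ]

theorem idxCount_one : ∀ n, idxCount n 1 = 1
  | 0 => by simp [idxCount_zero]
  | n + 1 => by simp [idxCount_succ n one_ne_zero, idxCount_one n]

/-- **The number of subgroups of index `p ^ k`** as a Gaussian binomial coefficient. -/
theorem idxCount_mul_prod (hp : p.Prime) : ∀ n k : ℕ,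
    (idxCount n (p ^ k) : ℝ) * ∏ i ∈ range k, ((p : ℝ) ^ (i + 1) - 1) =
      ∏ i ∈ range k, ((p : ℝ) ^ (n + i) - 1) := by
  intro n
  induction n with
  | zero =>
    rintro (_ | k)
    · simp [idxCount_zero]
    · rw [Finset.prod_range_succ' (fun i => (p : ℝ) ^ (0 + i) - 1), idxCount_zero,
        if_neg (by simp [hp.ne_one])]
      simp
  | succ n ihn =>
    intro k
    induction k with
    | zero => simp [idxCount_one]
    | succ k ihk =>
      have h1 := ihn (k + 1)
      rw [Finset.prod_range_succ, Finset.prod_range_succ' (fun i => (p : ℝ) ^ (n + i) - 1)] at h1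
      have hshift : ∏ i ∈ range k, ((p : ℝ) ^ (n + (i + 1)) - 1) =
          ∏ i ∈ range k, ((p : ℝ) ^ (n + 1 + i) - 1) :=
        prod_congr rfl fun i _ => by rw [add_assoc, add_comm 1 i]
      rw [hshift, Nat.add_zero] at h1
      rw [idxCount_pow_succ hp, Nat.cast_add, Nat.cast_mul, Nat.cast_pow, Finset.prod_range_succ,
        Finset.prod_range_succ]
      linear_combination ((p : ℝ) ^ (k + 1) - 1) * ihk + (p : ℝ) ^ (k + 1) * h1

/-- The limit density `p ^ (-k) / ∏_{i ≤ k} (1 - p ^ (-i))`. -/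
def layerMass (p k : ℕ) : ℝ :=
  (p : ℝ)⁻¹ ^ k / ∏ i ∈ range k, (1 - (p : ℝ)⁻¹ ^ (i + 1))

theorem inv_pow_lt_one (hp : p.Prime) (i : ℕ) : (p : ℝ)⁻¹ ^ (i + 1) < 1 :=
  pow_lt_one₀ (by positivity) (inv_lt_one_of_one_lt₀ (by exact_mod_cast hp.one_lt)) (by omega)

theorem prod_pos (hp : p.Prime) (k : ℕ) : 0 < ∏ i ∈ range k, (1 - (p : ℝ)⁻¹ ^ (i + 1)) :=
  Finset.prod_pos fun i _ => sub_pos.2 (inv_pow_lt_one hp i)

theorem layerMass_nonneg (hp : p.Prime) (k : ℕ) : 0 ≤ layerMass p k :=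
  div_nonneg (by positivity) (prod_pos hp k).le

/-- **The density of subgroups of index `p ^ k`.** -/
theorem tendsto_idxCount (hp : p.Prime) (k : ℕ) :
    Tendsto (fun n => (idxCount n (p ^ k) : ℝ) / (p : ℝ) ^ (k * n)) atTop
      (𝓝 (layerMass p k)) := by
  have hp1 : (1 : ℝ) < p := by exact_mod_cast hp.one_lt
  have hp0 : (0 : ℝ) < p := by linarith
  have hD : ∏ i ∈ range k, ((p : ℝ) ^ (i + 1) - 1) ≠ 0 :=
    Finset.prod_ne_zero_iff.2 fun i _ => sub_ne_zero.2 (one_lt_pow₀ hp1 (by omega)).ne'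
  have heq : ∀ n, (idxCount n (p ^ k) : ℝ) / (p : ℝ) ^ (k * n) =
      (∏ i ∈ range k, ((p : ℝ) ^ i - (p : ℝ)⁻¹ ^ n)) /
        ∏ i ∈ range k, ((p : ℝ) ^ (i + 1) - 1) := fun n => by
    have h := idxCount_mul_prod hp n k
    have hfac : ∏ i ∈ range k, ((p : ℝ) ^ (n + i) - 1) =
        (p : ℝ) ^ (k * n) * ∏ i ∈ range k, ((p : ℝ) ^ i - (p : ℝ)⁻¹ ^ n) := by
      rw [show (p : ℝ) ^ (k * n) = ∏ _i ∈ range k, (p : ℝ) ^ n by
        rw [prod_const, card_range, ← pow_mul, mul_comm], ← prod_mul_distrib]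
      refine prod_congr rfl fun i _ => ?_
      rw [mul_sub, ← pow_add, inv_pow, mul_inv_cancel₀ (pow_ne_zero n hp0.ne')]
    rw [hfac] at h
    rw [div_eq_div_iff (pow_ne_zero _ hp0.ne') hD, h, mul_comm]
  simp only [heq]
  have hlim : (∏ i ∈ range k, ((p : ℝ) ^ i - 0)) / ∏ i ∈ range k, ((p : ℝ) ^ (i + 1) - 1) =
      layerMass p k := by
    have hs : ∏ i ∈ range k, ((p : ℝ) ^ (i + 1) - 1) =
        (∏ i ∈ range k, (p : ℝ) ^ i) *
          ((p : ℝ) ^ k * ∏ i ∈ range k, (1 - (p : ℝ)⁻¹ ^ (i + 1))) := by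
      rw [show (p : ℝ) ^ k = ∏ _i ∈ range k, (p : ℝ) by rw [prod_const, card_range],
        ← prod_mul_distrib, ← prod_mul_distrib]
      refine prod_congr rfl fun i _ => ?_
      have : (p : ℝ)⁻¹ ^ (i + 1) * (p : ℝ) ^ (i + 1) = 1 := by
        rw [← mul_pow, inv_mul_cancel₀ hp0.ne', one_pow]
      linear_combination this
    simp only [sub_zero, layerMass, hs]
    have := (prod_pos hp k).ne'
    rw [inv_pow]
    field_simp
  rw [← hlim]
  refine Tendsto.div_const (tendsto_finsetProd _ fun i _ => tendsto_const_nhds.sub ?_) _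
  exact tendsto_pow_atTop_nhds_zero_of_lt_one (by positivity) (inv_lt_one_of_one_lt₀ hp1)

/-- The Euler product `∏_{i ≥ 1} (1 - p ^ (-i))`. -/
def eta (p : ℕ) : ℝ := ∏' i : ℕ, (1 - (p : ℝ)⁻¹ ^ (i + 1))

theorem tendsto_prod_eta (hp : p.Prime) :
    Tendsto (fun m => ∏ i ∈ range m, (1 - (p : ℝ)⁻¹ ^ (i + 1))) atTop (𝓝 (eta p)) ∧
      0 < eta p := by
  have hp1 : (1 : ℝ) < p := by exact_mod_cast hp.one_lt
  have hs : Summable fun i : ℕ => ‖-((p : ℝ)⁻¹ ^ (i + 1))‖ := by
    simp only [norm_neg, pow_succ]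
    exact ((summable_geometric_of_lt_one (by positivity)
      (inv_lt_one_of_one_lt₀ hp1)).mul_right _).norm
  have hm : Multipliable fun i : ℕ => 1 - (p : ℝ)⁻¹ ^ (i + 1) := by
    simpa only [← sub_eq_add_neg] using multipliable_one_add_of_summable hs
  have ht := hm.hasProd.tendsto_prod_nat
  have hne : eta p ≠ 0 := by
    have := tprod_one_add_ne_zero_of_summable (f := fun i : ℕ => -((p : ℝ)⁻¹ ^ (i + 1)))
      (fun i => by
        have := inv_pow_lt_one hp i
        linarith) hs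
    simpa only [eta, ← sub_eq_add_neg] using this
  exact ⟨ht, lt_of_le_of_ne
    (ge_of_tendsto ht (Eventually.of_forall fun m => (prod_pos hp m).le)) hne.symm⟩

/-- **Euler's identity**: the densities sum to the inverse of the product. -/
theorem hasSum_layerMass (hp : p.Prime) : HasSum (layerMass p) (eta p)⁻¹ := by
  refine (hasSum_iff_tendsto_nat_of_nonneg (layerMass_nonneg hp) _).2 ?_
  have key : ∀ m, ∑ k ∈ range (m + 1), layerMass p k =
      (∏ i ∈ range m, (1 - (p : ℝ)⁻¹ ^ (i + 1)))⁻¹ := fun m => by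
    induction m with
    | zero => simp [layerMass]
    | succ m ih =>
      rw [Finset.sum_range_succ, ih, layerMass, Finset.prod_range_succ]
      have h1 := (prod_pos hp m).ne'
      have h2 := (sub_pos.2 (inv_pow_lt_one hp m)).ne'
      generalize ∏ i ∈ range m, (1 - (p : ℝ)⁻¹ ^ (i + 1)) = A at h1 ⊢
      generalize (p : ℝ)⁻¹ ^ (m + 1) = x at h2 ⊢
      field_simp
      ring
  rw [← tendsto_add_atTop_iff_nat 1]
  simp only [key]
  exact (tendsto_prod_eta hp).1.inv₀ (tendsto_prod_eta hp).2.ne'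

end FA.CohenLenstra

end
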