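import Fermat.Agent.CohenLenstra.Counting
import Mathlib.Algebra.Module.ZMod
import Mathlib.LinearAlgebra.Dual.Basis
import Mathlib.FieldTheory.Finiteness
import Mathlib.Data.ZMod.Aut
import Mathlib.Data.Nat.Totient
import Mathlib.GroupTheory.SpecificGroups.Cyclic
import Mathlib.GroupTheory.Subgroup.Simple

/-!
# The Cohen–Lenstra measure and its moments

The weights `η / |Aut G|` on the classes of finite abelian `p`-groups, `η = ∏ (1 - p ^ (-i))`,
sum to one, and the expected number of surjections onto any `p`-group is one.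
-/

set_option autoImplicit false
set_option linter.style.haveILetI false

noncomputable section

open Finset Filter Topology
open FA.SLnVolume (idxSet idxCount)

namespace FA.CohenLenstra

variable (p : ℕ) [hp : Fact p.Prime]

/-- The classes of all finite abelian `p`-groups. -/
abbrev Classes := (k : ℕ) × Cls p k

/-- **The Cohen–Lenstra weight.** -/
def mu (x : Classes p) : ℝ := eta p / Nat.card (AddAut (Rep x.2))

theorem mu_pos (x : Classes p) : 0 < mu p x :=
  div_pos (tendsto_prod_eta hp.out).2 (by exact_mod_cast card_addAut_pos _)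

theorem existsUnique_classes (A : Type*) [AddCommGroup A] {k : ℕ} (hA : Nat.card A = p ^ k) :
    ∃! x : Classes p, Nonempty (Rep x.2 ≃+ A) := by
  obtain ⟨c, hc, huniq⟩ := existsUnique_cls (p := p) A hA
  refine ⟨⟨k, c⟩, hc, ?_⟩
  rintro ⟨m, d⟩ ⟨e⟩
  obtain rfl : m = k := Nat.pow_right_injective hp.out.two_le
    ((card_rep d).symm.trans ((Nat.card_congr e.toEquiv).trans hA))
  rw [huniq d ⟨e⟩]

/-- The proportion of subgroups with a given quotient tends to the weight. -/
theorem tendsto_withQuotient (A : Type*) [AddCommGroup A] [Finite A] :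
    Tendsto (fun n => (Nat.card (WithQuotient n A) : ℝ) / (Nat.card A : ℝ) ^ n) atTop
      (𝓝 (1 / Nat.card (AddAut A))) := by
  refine (((tendsto_card_sur A).div_const (Nat.card (AddAut A) : ℝ)).congr fun n => ?_)
  have := card_addAut_pos A
  rw [card_sur, Nat.cast_mul]
  field_simp

variable [∀ k, Fintype (Cls p k)]

/-- **Hall's mass formula** for the groups of order `p ^ k`. -/
theorem sum_inv_addAut (k : ℕ) :
    ∑ c : Cls p k, (1 : ℝ) / Nat.card (AddAut (Rep c)) = layerMass p k := by
  refine tendsto_nhds_unique ?_ (tendsto_idxCount hp.out k)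
  refine (tendsto_finsetSum Finset.univ fun c _ => tendsto_withQuotient (Rep c)).congr fun n => ?_
  rw [← sum_card_withQuotient (p := p) n k, Nat.cast_sum, Finset.sum_div]
  exact Finset.sum_congr rfl fun c _ => by rw [card_rep, Nat.cast_pow, ← pow_mul]

/-- **The moments**, layer by layer. -/
theorem sum_sur_div_addAut (H : Type*) [AddCommGroup H] {h : ℕ} (hH : Nat.card H = p ^ h)
    (j : ℕ) :
    ∑ c : Cls p (h + j), (Nat.card (Sur (Rep c) H) : ℝ) / Nat.card (AddAut (Rep c)) =
      layerMass p j := by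
  haveI : Finite H := Nat.finite_of_card_ne_zero (hH ▸ pow_ne_zero h hp.out.ne_zero)
  have h1 : Tendsto (fun n => ∑ c : Cls p (h + j),
      (Nat.card (WithQuotient n (Rep c)) : ℝ) / (Nat.card (Rep c) : ℝ) ^ n *
        Nat.card (Sur (Rep c) H)) atTop
      (𝓝 (∑ c : Cls p (h + j), (Nat.card (Sur (Rep c) H) : ℝ) / Nat.card (AddAut (Rep c)))) := by
    refine tendsto_finsetSum _ fun c _ => ?_
    rw [← one_div_mul_eq_div]
    exact (tendsto_withQuotient (Rep c)).mul_const _
  refine tendsto_nhds_unique h1 ?_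
  have h2 := (tendsto_card_sur H).mul (tendsto_idxCount hp.out j)
  rw [one_mul] at h2
  refine h2.congr fun n => ?_
  rw [div_mul_div_comm, ← Nat.cast_mul, ← sum_card_withQuotient_mul_sur n H hH j, Nat.cast_sum,
    Finset.sum_div, hH]
  refine Finset.sum_congr rfl fun c _ => ?_
  rw [card_rep, Nat.cast_mul, Nat.cast_pow, Nat.cast_pow, ← pow_mul, ← pow_mul, ← pow_add,
    ← add_mul, div_mul_eq_mul_div]

/-- **The moments**: the weighted numbers of surjections onto `H` sum to the total mass. -/
theorem hasSum_sur (H : Type*) [AddCommGroup H] {h : ℕ} (hH : Nat.card H = p ^ h) :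
    HasSum (fun x : Classes p => (Nat.card (Sur (Rep x.2) H) : ℝ) * mu p x) 1 := by
  have heta := (tendsto_prod_eta hp.out).2
  set f : Classes p → ℝ := fun x => (Nat.card (Sur (Rep x.2) H) : ℝ) * mu p x
  have hlayer : ∀ k, ∑ c : Cls p k, f ⟨k, c⟩ =
      eta p * if h ≤ k then layerMass p (k - h) else 0 := fun k => by
    split_ifs with hk
    · obtain ⟨j, rfl⟩ := Nat.exists_eq_add_of_le hk
      rw [Nat.add_sub_cancel_left, ← sum_sur_div_addAut p H hH j, Finset.mul_sum]
      refine Finset.sum_congr rfl fun c _ => ?_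
      simp only [f, mu]
      ring
    · rw [mul_zero]
      refine Finset.sum_eq_zero fun c _ => ?_
      haveI : IsEmpty (Sur (Rep c) H) := ⟨fun g => by
        have := Nat.card_le_card_of_surjective g.1 g.2
        rw [hH, card_rep] at this
        exact hk ((Nat.pow_le_pow_iff_right hp.out.one_lt).1 this)⟩
      simp only [f]
      rw [Nat.card_of_isEmpty, Nat.cast_zero, zero_mul]
  have hshift : HasSum (fun k => eta p * if h ≤ k then layerMass p (k - h) else 0) 1 := by
    have h0 := (hasSum_layerMass hp.out).mul_left (eta p)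
    rw [mul_inv_cancel₀ heta.ne'] at h0
    refine ((Function.Injective.hasSum_iff (g := fun j => h + j) (add_right_injective h) ?_).1 ?_)
    · intro k hk
      rw [if_neg (fun hle => hk ⟨k - h, Nat.add_sub_cancel' hle⟩), mul_zero]
    · simpa [Function.comp_def] using h0
  have hnn : ∀ x, 0 ≤ f x := fun x => mul_nonneg (Nat.cast_nonneg _) (mu_pos p x).le
  have hfib : ∀ k, ∑' c : Cls p k, f ⟨k, c⟩ =
      eta p * if h ≤ k then layerMass p (k - h) else 0 := fun k => by
    rw [tsum_fintype, hlayer]
  have hsum : Summable f := (summable_sigma_of_nonneg hnn).2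
    ⟨fun k => Summable.of_finite, by simp only [hfib]; exact hshift.summable⟩
  convert hsum.hasSum using 1
  rw [hsum.tsum_sigma]
  simp only [hfib]
  exact hshift.tsum_eq.symm

/-- **The measure has total mass one.** -/
theorem hasSum_mu : HasSum (mu p) 1 := by
  have h := hasSum_sur p (ZMod 1) (h := 0) (by simp)
  convert h using 2 with x
  haveI : Unique (Sur (Rep x.2) (ZMod 1)) :=
    ⟨⟨⟨0, fun y => ⟨0, Subsingleton.elim _ _⟩⟩⟩,
      fun g => Subtype.ext (AddMonoidHom.ext fun y => Subsingleton.elim _ _)⟩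
  rw [Nat.card_unique, Nat.cast_one, one_mul]

omit hp [∀ k, Fintype (Cls p k)] in
/-- Homomorphisms are sorted by their images. -/
theorem card_hom_eq_sum (A H : Type*) [AddCommGroup A] [AddCommGroup H] [Finite A] [Finite H]
    [Fintype (AddSubgroup H)] :
    Nat.card (A →+ H) = ∑ K : AddSubgroup H, Nat.card (Sur A K) := by
  haveI : ∀ K : AddSubgroup H, Finite (Sur A K) := fun K =>
    Finite.of_injective (fun f => ⇑f.1) fun a b e => Subtype.ext (DFunLike.coe_injective e)
  rw [← Nat.card_sigma]
  refine Nat.card_congr (Equiv.ofBijective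
    (fun f : A →+ H => (⟨f.range, f.rangeRestrict, f.rangeRestrict_surjective⟩ :
      (K : AddSubgroup H) × Sur A K))
    ⟨fun f g hfg => (congrArg
      (fun x : (K : AddSubgroup H) × Sur A K => x.1.subtype.comp x.2.1) hfg :), ?_⟩)
  rintro ⟨K, g, hg⟩
  have hr : (K.subtype.comp g).range = K := by
    rw [AddMonoidHom.range_comp, AddMonoidHom.range_eq_top.2 hg, ← AddMonoidHom.range_eq_map,
      AddSubgroup.range_subtype]
  refine ⟨K.subtype.comp g, ?_⟩
  apply Sigma.ext hr
  have key : ∀ (K' : AddSubgroup H) (g' : A →+ K') (hg' : Function.Surjective g'),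
      K' = K → (∀ a, (g' a : H) = g a) → HEq (⟨g', hg'⟩ : Sur A K') (⟨g, hg⟩ : Sur A K) := by
    rintro K' g' hg' rfl he
    exact heq_of_eq (Subtype.ext (AddMonoidHom.ext fun a => Subtype.ext (he a)))
  exact key _ _ _ hr fun a => rfl

/-- **Homomorphisms**: the expected number is the number of subgroups. -/
theorem hasSum_hom (H : Type*) [AddCommGroup H] {h : ℕ} (hH : Nat.card H = p ^ h) :
    HasSum (fun x : Classes p => (Nat.card (Rep x.2 →+ H) : ℝ) * mu p x)
      (Nat.card (AddSubgroup H)) := by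
  haveI : Finite H := Nat.finite_of_card_ne_zero (hH ▸ pow_ne_zero h hp.out.ne_zero)
  haveI := Fintype.ofFinite (AddSubgroup H)
  have hK : ∀ K : AddSubgroup H, ∃ i, Nat.card K = p ^ i := fun K => by
    obtain ⟨i, -, hi⟩ := (Nat.dvd_prime_pow hp.out).1 (hH ▸ K.card_addSubgroup_dvd_card)
    exact ⟨i, hi⟩
  have hs := hasSum_sum (s := (Finset.univ : Finset (AddSubgroup H)))
    fun K _ => hasSum_sur p K (hK K).choose_spec
  simp only [Finset.sum_const, Finset.card_univ, nsmul_eq_mul, mul_one,
    ← Nat.card_eq_fintype_card] at hs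
  convert hs using 2 with x
  rw [card_hom_eq_sum, Nat.cast_sum, Finset.sum_mul]

omit [∀ k, Fintype (Cls p k)] in
/-- The `p`-torsion has the order of the group of characters of order `p`. -/
theorem card_torsion_eq_hom (A : Type*) [AddCommGroup A] [Finite A] :
    Nat.card {a : A // p • a = 0} = Nat.card (A →+ ZMod p) := by
  set m : A →+ A := nsmulAddMonoidHom p
  have h1 : Nat.card m.ker = Nat.card (A ⧸ m.range) := by
    have hk := m.ker.index_mul_card
    have hr := m.range.index_mul_card
    rw [AddSubgroup.index_ker] at hk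
    rw [← AddSubgroup.index_eq_card]
    exact Nat.eq_of_mul_eq_mul_left (Nat.card_pos (α := m.range))
      ((hk.trans hr.symm).trans (mul_comm _ _))
  haveI : Module (ZMod p) (A ⧸ m.range) := AddCommGroup.zmodModule fun q => by
    obtain ⟨a, rfl⟩ := QuotientAddGroup.mk'_surjective m.range q
    rw [← map_nsmul]
    exact (QuotientAddGroup.eq_zero_iff _).2 ⟨a, rfl⟩
  have h2 : Nat.card (A ⧸ m.range) = Nat.card (Module.Dual (ZMod p) (A ⧸ m.range)) := by
    classical
    exact Nat.card_congr (Module.finBasis (ZMod p) (A ⧸ m.range)).toDualEquiv.toEquiv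
  have h3 : Nat.card (Module.Dual (ZMod p) (A ⧸ m.range)) = Nat.card (A →+ ZMod p) := by
    refine Nat.card_congr ⟨fun φ => φ.toAddMonoidHom.comp (QuotientAddGroup.mk' _),
      fun f => (QuotientAddGroup.lift m.range f ?_).toZModLinearMap p, fun φ => ?_, fun f => ?_⟩
    · rintro _ ⟨a, rfl⟩
      rw [AddMonoidHom.mem_ker]
      show f (p • a) = 0
      rw [map_nsmul, nsmul_eq_mul, ZMod.natCast_self, zero_mul]
    · refine LinearMap.ext fun q => ?_
      obtain ⟨a, rfl⟩ := QuotientAddGroup.mk'_surjective m.range q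
      rfl
    · exact AddMonoidHom.ext fun a => rfl
  exact h1.trans (h2.trans h3)

/-- **The average `p`-torsion is two.** -/
theorem hasSum_torsion :
    HasSum (fun x : Classes p => (Nat.card {a : Rep x.2 // p • a = 0} : ℝ) * mu p x) 2 := by
  have h := hasSum_hom p (ZMod p) (h := 1) (by rw [Nat.card_zmod, pow_one])
  have hcard : Nat.card (AddSubgroup (ZMod p)) = 2 := by
    haveI : IsSimpleAddGroup (ZMod p) := isSimpleAddGroup_of_prime_card (p := p) (Nat.card_zmod p)
    rw [Nat.card_eq_two_iff' (⊥ : AddSubgroup (ZMod p))]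
    exact ⟨⊤, top_ne_bot, fun K hK =>
      ((AddSubgroup.Normal.eq_bot_or_eq_top (H := K) inferInstance).resolve_left hK)⟩
  rw [hcard, Nat.cast_ofNat] at h
  simp only [card_torsion_eq_hom p]
  exact h

omit [∀ k, Fintype (Cls p k)] in
/-- The trivial group. -/
theorem mu_trivial (x : Classes p) (hx : Nat.card (Rep x.2) = 1) : mu p x = eta p := by
  haveI : Subsingleton (Rep x.2) := (Nat.card_eq_one_iff_unique.1 hx).1
  haveI : Unique (AddAut (Rep x.2)) :=
    ⟨⟨AddEquiv.refl _⟩, fun e => AddEquiv.ext fun a => Subsingleton.elim _ _⟩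
  rw [mu, Nat.card_unique, Nat.cast_one, div_one]

omit [∀ k, Fintype (Cls p k)] in
/-- The classes of cyclic groups. -/
theorem existsUnique_cyclic (k : ℕ) :
    ∃! c : Cls p k, IsAddCyclic (Rep c) := by
  obtain ⟨c, ⟨e⟩, huniq⟩ := existsUnique_cls (p := p) (ZMod (p ^ k)) (Nat.card_zmod _)
  refine ⟨c, isAddCyclic_of_surjective e.symm.toAddMonoidHom e.symm.surjective,
    fun d hd => huniq d ?_⟩
  exact ⟨((zmodAddCyclicAddEquiv hd).symm).trans (ZMod.ringEquivCongr (card_rep d)).toAddEquiv⟩

omit [∀ k, Fintype (Cls p k)] in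
theorem card_addAut_cyclic {k : ℕ} (c : Cls p k) (hc : IsAddCyclic (Rep c)) :
    Nat.card (AddAut (Rep c)) = Nat.totient (p ^ k) := by
  haveI : NeZero (p ^ k) := ⟨pow_ne_zero k hp.out.ne_zero⟩
  rw [card_addAut_congr (((zmodAddCyclicAddEquiv hc).symm).trans
      (ZMod.ringEquivCongr (card_rep c)).toAddEquiv),
    Nat.card_congr ((ZMod.AddAutEquivUnits (p ^ k)).toEquiv.trans Additive.toMul),
    Nat.card_eq_fintype_card, ZMod.card_units_eq_totient]

omit [∀ k, Fintype (Cls p k)] in
/-- **The probability of being cyclic.** -/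
theorem hasSum_cyclic :
    HasSum (fun x : Classes p => {x : Classes p | IsAddCyclic (Rep x.2)}.indicator (mu p) x)
      (eta p * (((p : ℝ) ^ 2 - p + 1) / ((p : ℝ) - 1) ^ 2)) := by
  classical
  choose c hc huniq using fun k => existsUnique_cyclic p k
  have hp1 : (1 : ℝ) < p := by exact_mod_cast hp.out.one_lt
  refine ((Function.Injective.hasSum_iff (g := fun k => (⟨k, c k⟩ : Classes p))
    (fun a b h => congrArg Sigma.fst h) ?_).1 ?_)
  · rintro ⟨k, d⟩ hd
    exact Set.indicator_of_notMem (fun hcyc => hd ⟨k, by rw [huniq k d hcyc]⟩) _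
  · have hval : (fun x : Classes p => {x : Classes p | IsAddCyclic (Rep x.2)}.indicator (mu p) x) ∘
        (fun k => (⟨k, c k⟩ : Classes p)) = fun k => eta p / Nat.totient (p ^ k) := by
      funext k
      simp only [Function.comp_apply]
      rw [Set.indicator_of_mem (show (⟨k, c k⟩ : Classes p) ∈
        {x : Classes p | IsAddCyclic (Rep x.2)} from hc k), mu,
        card_addAut_cyclic p (c k) (hc k)]
    rw [hval, ← hasSum_nat_add_iff' 1]
    have hg := ((hasSum_geometric_of_lt_one (r := (p : ℝ)⁻¹) (by positivity)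
      (inv_lt_one_of_one_lt₀ hp1)).mul_left (eta p / ((p : ℝ) - 1)))
    have hp0 : (p : ℝ) - 1 ≠ 0 := by linarith
    have hp2 : (p : ℝ) ≠ 0 := by linarith
    have hterm : (fun n : ℕ => eta p / (Nat.totient (p ^ (n + 1)) : ℝ)) =
        fun i => eta p / ((p : ℝ) - 1) * (p : ℝ)⁻¹ ^ i := by
      funext k
      rw [Nat.totient_prime_pow_succ hp.out, Nat.cast_mul, Nat.cast_pow,
        Nat.cast_sub hp.out.one_lt.le, Nat.cast_one, inv_pow]
      field_simp
    have hlim : eta p * (((p : ℝ) ^ 2 - p + 1) / ((p : ℝ) - 1) ^ 2) -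
          ∑ i ∈ Finset.range 1, eta p / (Nat.totient (p ^ i) : ℝ) =
        eta p / ((p : ℝ) - 1) * (1 - (p : ℝ)⁻¹)⁻¹ := by
      rw [Finset.sum_range_one, pow_zero, Nat.totient_one, Nat.cast_one, div_one]
      field_simp
      ring
    rw [hterm, hlim]
    exact hg

end FA.CohenLenstra

end
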