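import Fermat.Agent.CohenLenstra.Moebius
import Fermat.Agent.CohenLenstra.Measure
import Mathlib.LinearAlgebra.Matrix.GeneralLinearGroup.Card
import Mathlib.LinearAlgebra.Dimension.Finite

/-!
# The inverse of the moment matrix

`beta p A a y` is `(-1) ^ j p ^ (j choose 2)` times the weighted number of surjections onto `A`
with kernel killed by `p`, for a class `y` of order `|A| p ^ j`. It inverts the matrix of surjection
counts, and on the layer `j` the weighted counts sum to `1 / |GL_j (𝔽_p)|`.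
-/

set_option autoImplicit false
set_option linter.style.haveILetI false

noncomputable section

open Finset Filter Topology
open FA.SLnVolume (idxSet finite_idxSet)

namespace FA.CohenLenstra

/-- The subgroups with quotient isomorphic to `A`. -/
abbrev QuotTo (G A : Type*) [AddCommGroup G] [AddCommGroup A] :=
  {L : AddSubgroup G // Nonempty (G ⧸ L ≃+ A)}

/-- Surjections and subgroups with given quotient, for any source. -/
theorem card_sur_quotTo (G A : Type*) [AddCommGroup G] [AddCommGroup A] :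
    Nat.card (Sur G A) = Nat.card (QuotTo G A) * Nat.card (AddAut A) := by
  classical
  rw [← Nat.card_prod]
  refine (Nat.card_congr (Equiv.ofBijective (fun x : QuotTo G A × AddAut A =>
    (⟨(x.2.toAddMonoidHom.comp x.1.2.some.toAddMonoidHom).comp (QuotientAddGroup.mk' x.1.1),
      (x.2.surjective.comp x.1.2.some.surjective).comp (QuotientAddGroup.mk'_surjective _)⟩ :
      Sur G A)) ⟨?_, fun f => ?_⟩)).symm
  · rintro ⟨L, a⟩ ⟨M, b⟩ h
    have h' := congrArg Subtype.val h
    have hL : ∀ (L : QuotTo G A) (a : AddAut A), ((a.toAddMonoidHom.comp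
        L.2.some.toAddMonoidHom).comp (QuotientAddGroup.mk' L.1)).ker = L.1 := fun L a => by
      ext x
      simp [QuotientAddGroup.eq_zero_iff]
    obtain rfl : L = M := Subtype.ext ((hL L a).symm.trans ((congrArg AddMonoidHom.ker h').trans
      (hL M b)))
    refine Prod.ext rfl (AddEquiv.ext fun y => ?_)
    obtain ⟨z, rfl⟩ := (L.2.some.surjective.comp (QuotientAddGroup.mk'_surjective _)) y
    exact DFunLike.congr_fun h' z
  · set e := QuotientAddGroup.quotientKerEquivOfSurjective f.1 f.2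
    refine ⟨(⟨f.1.ker, ⟨e⟩⟩, (Classical.choice (⟨e⟩ : Nonempty _)).symm.trans e),
      Subtype.ext (AddMonoidHom.ext fun x => ?_)⟩
    simp [e, QuotientAddGroup.quotientKerEquivOfSurjective]

/-- The surjections with kernel killed by `p`. -/
abbrev ElemSur (p : ℕ) (C A : Type*) [AddCommGroup C] [AddCommGroup A] :=
  {h : Sur C A // ∀ x, h.1 x = 0 → p • x = 0}

/-- The subgroups of index `d` between the multiples by `p` of a kernel and the kernel. -/
abbrev Below (p d : ℕ) {G A : Type*} [AddCommGroup G] [AddCommGroup A] (g : Sur G A) :=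
  {L : AddSubgroup G // L.index = d ∧ L ≤ g.1.ker ∧ ∀ x ∈ g.1.ker, p • x ∈ L}

variable {p : ℕ} [hp : Fact p.Prime]

/-- A class, a subgroup with that quotient and an elementary surjection give a surjection of the
source and a subgroup below its kernel. -/
def elemPairMap (G A : Type*) [AddCommGroup G] [AddCommGroup A] (m : ℕ)
    (x : (c : Cls p m) × (QuotTo G (Rep c) × ElemSur p (Rep c) A)) :
    (g : Sur G A) × Below p (p ^ m) g :=
  ⟨⟨(x.2.2.1.1.comp x.2.1.2.some.toAddMonoidHom).comp (QuotientAddGroup.mk' x.2.1.1),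
      (x.2.2.1.2.comp x.2.1.2.some.surjective).comp (QuotientAddGroup.mk'_surjective _)⟩,
    ⟨x.2.1.1, by rw [AddSubgroup.index_eq_card, Nat.card_congr x.2.1.2.some.toEquiv, card_rep],
      fun v hv => by
        rw [AddMonoidHom.mem_ker, AddMonoidHom.comp_apply, QuotientAddGroup.mk'_apply,
          (QuotientAddGroup.eq_zero_iff v).2 hv, map_zero],
      fun v hv => by
        rw [← QuotientAddGroup.eq_zero_iff, ← QuotientAddGroup.mk'_apply, map_nsmul,
          ← x.2.1.2.some.map_eq_zero_iff, map_nsmul]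
        exact x.2.2.2 _ hv⟩⟩

theorem elemPairMap_bijective (G A : Type*) [AddCommGroup G] [AddCommGroup A] (m : ℕ) :
    Function.Bijective (elemPairMap (p := p) G A m) := by
  refine ⟨?_, ?_⟩
  · rintro ⟨c, L, φ⟩ ⟨d, M, ψ⟩ he
    have hLM : L.1 = M.1 := congrArg (fun z => z.2.1) he
    obtain rfl : c = d := (existsUnique_cls (G ⧸ L.1)
      (by rw [Nat.card_congr L.2.some.toEquiv, card_rep])).unique ⟨L.2.some.symm⟩
        ⟨((QuotientAddGroup.quotientAddEquivOfEq hLM).trans M.2.some).symm⟩
    obtain rfl : L = M := Subtype.ext hLM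
    have hg := congrArg (fun z => z.1.1) he
    refine congrArg _ (Prod.ext rfl (Subtype.ext (Subtype.ext (AddMonoidHom.ext fun y => ?_))))
    obtain ⟨v, rfl⟩ := (L.2.some.surjective.comp (QuotientAddGroup.mk'_surjective _)) y
    exact DFunLike.congr_fun hg v
  · rintro ⟨g, L, hL, hle, hmul⟩
    obtain ⟨c, ⟨e⟩, -⟩ := existsUnique_cls (p := p) (G ⧸ L)
      (by rw [← AddSubgroup.index_eq_card, hL])
    set W : QuotTo G (Rep c) := ⟨L, ⟨e.symm⟩⟩
    set φ := (QuotientAddGroup.lift L g.1 hle).comp W.2.some.symm.toAddMonoidHom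
    have hφ : Function.Surjective φ := fun y => by
      obtain ⟨v, rfl⟩ := g.2 y
      exact ⟨W.2.some (QuotientAddGroup.mk v), by simp [φ]⟩
    have hel : ∀ y, φ y = 0 → p • y = 0 := fun y hy => by
      obtain ⟨v, rfl⟩ := (W.2.some.surjective.comp (QuotientAddGroup.mk'_surjective _)) y
      have hv : g.1 v = 0 := by simpa [φ] using hy
      show p • W.2.some (QuotientAddGroup.mk' L v) = 0
      rw [← map_nsmul, ← map_nsmul, QuotientAddGroup.mk'_apply,
        (QuotientAddGroup.eq_zero_iff _).2 (hmul v hv), map_zero]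
    refine ⟨⟨c, W, ⟨φ, hφ⟩, hel⟩,
      Sigma.subtype_ext (Subtype.ext (AddMonoidHom.ext fun v => ?_)) rfl⟩
    show φ (W.2.some (QuotientAddGroup.mk v)) = g.1 v
    simp [φ]

omit hp in
theorem finite_sur (B C : Type*) [AddCommGroup B] [AddCommGroup C] [Finite B] [Finite C] :
    Finite (Sur B C) :=
  Finite.of_injective (fun f => ⇑f.1) fun _ _ e => Subtype.ext (DFunLike.coe_injective e)

/-- The pairs counted. -/
theorem sum_card_mul_elem [∀ k, Fintype (Cls p k)] (G A : Type*) [AddCommGroup G]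
    [AddCommGroup A] [Finite A] (m : ℕ) [∀ c : Cls p m, Finite (QuotTo G (Rep c))]
    [Fintype (Sur G A)] [∀ g : Sur G A, Finite (Below p (p ^ m) g)] :
    ∑ c : Cls p m, Nat.card (QuotTo G (Rep c)) * Nat.card (ElemSur p (Rep c) A) =
      ∑ g : Sur G A, Nat.card (Below p (p ^ m) g) := by
  haveI : ∀ c : Cls p m, Finite (Sur (Rep c) A) := fun c => finite_sur _ _
  rw [Finset.sum_congr rfl fun c _ => (Nat.card_prod _ _).symm, ← Nat.card_sigma,
    Nat.card_congr (Equiv.ofBijective _ (elemPairMap_bijective (p := p) G A m)), Nat.card_sigma]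

variable (p)

/-- **The inverse matrix.** -/
def beta (A : Type*) [AddCommGroup A] (a : ℕ) (y : Classes p) : ℝ :=
  sgn p (y.1 - a) * ((Nat.card (ElemSur p (Rep y.2) A) : ℝ) / Nat.card (AddAut (Rep y.2)))

variable [∀ k, Fintype (Cls p k)]

/-- **The inversion**: the matrix of surjection counts composed with `beta`. -/
theorem sum_sur_mul_beta (B A : Type*) [AddCommGroup B] [AddCommGroup A] {k a : ℕ}
    (hB : Nat.card B = p ^ k) (hA : Nat.card A = p ^ a) :
    ∑ y ∈ (Finset.range (k + 1)).sigma (fun m => (Finset.univ : Finset (Cls p m))),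
      (Nat.card (Sur B (Rep y.2)) : ℝ) * beta p A a y =
      if k = a then (Nat.card (Sur B A) : ℝ) else 0 := by
  classical
  haveI : Finite B := Nat.finite_of_card_ne_zero (hB ▸ pow_ne_zero k hp.out.ne_zero)
  haveI : Finite A := Nat.finite_of_card_ne_zero (hA ▸ pow_ne_zero a hp.out.ne_zero)
  haveI : Finite (Sur B A) := finite_sur _ _
  haveI := Fintype.ofFinite (Sur B A)
  haveI := Fintype.ofFinite (AddSubgroup B)
  have hpow : ∀ L : AddSubgroup B, ∃ i ≤ k, L.index = p ^ i := fun L =>
    (Nat.dvd_prime_pow hp.out).1 (hB ▸ L.index_dvd_card)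
  set P : Sur B A → AddSubgroup B → Prop := fun g L => L ≤ g.1.ker ∧ ∀ x ∈ g.1.ker, p • x ∈ L
  have hlayer : ∀ m ∈ Finset.range (k + 1),
      ∑ c : Cls p m, (Nat.card (Sur B (Rep c)) : ℝ) * beta p A a ⟨m, c⟩ =
        ∑ g : Sur B A, ∑ L ∈ (Finset.univ.filter (P g)).filter (fun L => Nat.log p L.index = m),
          sgn p (Nat.log p L.index - a) := fun m _ => by
    have h1 : ∀ g : Sur B A, ∑ L ∈ (Finset.univ.filter (P g)).filter
        (fun L => Nat.log p L.index = m), sgn p (Nat.log p L.index - a) =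
          sgn p (m - a) * (Nat.card (Below p (p ^ m) g) : ℝ) := fun g => by
      rw [Finset.sum_congr rfl fun L hL => by rw [(Finset.mem_filter.1 hL).2], Finset.sum_const,
        nsmul_eq_mul, mul_comm, Nat.card_eq_fintype_card, Fintype.card_subtype,
        Finset.filter_filter]
      congr 2
      refine congrArg _ (Finset.filter_congr fun L _ => ?_)
      obtain ⟨i, -, hi⟩ := hpow L
      rw [hi, Nat.log_pow hp.out.one_lt, (Nat.pow_right_injective hp.out.two_le).eq_iff]
      exact and_comm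
    rw [Finset.sum_congr rfl fun g _ => h1 g, ← Finset.mul_sum, ← Nat.cast_sum,
      ← sum_card_mul_elem B A m, Nat.cast_sum, Finset.mul_sum]
    refine Finset.sum_congr rfl fun c _ => ?_
    have h0 : (Nat.card (AddAut (Rep c)) : ℝ) ≠ 0 := by exact_mod_cast (card_addAut_pos _).ne'
    rw [card_sur_quotTo, beta, Nat.cast_mul, Nat.cast_mul]
    field_simp
  rw [Finset.sum_sigma, Finset.sum_congr rfl hlayer, Finset.sum_comm]
  have hker : ∀ g : Sur B A, ∑ m ∈ Finset.range (k + 1),
      ∑ L ∈ (Finset.univ.filter (P g)).filter (fun L => Nat.log p L.index = m),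
        sgn p (Nat.log p L.index - a) = if k = a then 1 else 0 := fun g => by
    rw [Finset.sum_fiberwise_of_maps_to fun L _ => by
      obtain ⟨i, hik, hi⟩ := hpow L
      rw [hi, Nat.log_pow hp.out.one_lt, Finset.mem_range]
      omega]
    set K := g.1.ker
    have hKi : K.index = p ^ a := by
      rw [AddSubgroup.index_eq_card,
        Nat.card_congr (QuotientAddGroup.quotientKerEquivOfSurjective g.1 g.2).toEquiv, hA]
    have hak : a ≤ k := by
      obtain ⟨i, hik, hi⟩ := hpow K
      rw [hKi] at hi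
      exact (Nat.pow_right_injective hp.out.two_le hi) ▸ hik
    have hKc : Nat.card K = p ^ (k - a) := by
      refine Nat.eq_of_mul_eq_mul_left (pow_pos hp.out.pos a) ?_
      rw [← pow_add, Nat.add_sub_cancel' hak, ← hB, ← hKi, AddSubgroup.index_mul_card]
    haveI := Fintype.ofFinite (AddSubgroup K)
    rw [show (if k = a then (1 : ℝ) else 0) = if k - a = 0 then 1 else 0 from
      if_congr (by omega) rfl rfl, ← moebius_sum (p := p) K hKc]
    refine Finset.sum_bij' (fun L _ => L.addSubgroupOf K) (fun M _ => M.map K.subtype)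
      (fun L hL => ?_) (fun M hM => ?_) (fun L hL => ?_) (fun M _ => ?_) (fun L hL => ?_)
    · rw [Finset.mem_filter] at hL ⊢
      exact ⟨Finset.mem_univ _, fun x => AddSubgroup.mem_addSubgroupOf.2 (by
        rw [AddSubgroup.coe_nsmul]; exact hL.2.2 x x.2)⟩
    · rw [Finset.mem_filter] at hM ⊢
      exact ⟨Finset.mem_univ _, AddSubgroup.map_subtype_le M,
        fun x hx => ⟨p • ⟨x, hx⟩, hM.2 ⟨x, hx⟩, map_nsmul K.subtype p ⟨x, hx⟩⟩⟩
    · rw [AddSubgroup.addSubgroupOf_map_subtype, inf_eq_left.2 (Finset.mem_filter.1 hL).2.1]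
    · exact AddSubgroup.comap_map_eq_self_of_injective K.subtype_injective M
    · have h1 := AddSubgroup.relIndex_mul_index (Finset.mem_filter.1 hL).2.1
      obtain ⟨i, -, hi⟩ := hpow L
      obtain ⟨j, -, hj⟩ := (Nat.dvd_prime_pow hp.out).1
        (hKc ▸ (L.addSubgroupOf K).index_dvd_card)
      rw [AddSubgroup.relIndex, hj, hKi, hi, ← pow_add] at h1
      rw [hi, hj, ← Nat.pow_right_injective hp.out.two_le h1, Nat.log_pow hp.out.one_lt,
        Nat.log_pow hp.out.one_lt, Nat.add_sub_cancel]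
  rw [Finset.sum_congr rfl fun g _ => hker g, Finset.sum_const, Finset.card_univ,
    ← Nat.card_eq_fintype_card, nsmul_eq_mul, mul_ite, mul_one, mul_zero]

/-- The elementary abelian group of rank `j`. -/
abbrev Elem (p j : ℕ) := Fin j → ZMod p

omit hp [∀ k, Fintype (Cls p k)] in
theorem card_elem (j : ℕ) : Nat.card (Elem p j) = p ^ j := by
  rw [Nat.card_fun, Nat.card_zmod, Nat.card_fin]

omit [∀ k, Fintype (Cls p k)] in
/-- The automorphisms of an elementary abelian group. -/
theorem card_addAut_elem (j : ℕ) :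
    Nat.card (AddAut (Elem p j)) = ∏ i : Fin j, (p ^ j - p ^ (i : ℕ)) := by
  have h := Matrix.card_GL_field (𝔽 := ZMod p) j
  rw [ZMod.card] at h
  rw [← h]
  exact Nat.card_congr (((⟨fun e => { e with map_smul' := ZMod.map_smul e.toAddMonoidHom },
    fun f => f.toAddEquiv, fun _ => rfl, fun _ => rfl⟩ :
      AddAut (Elem p j) ≃ (Elem p j ≃ₗ[ZMod p] Elem p j))).trans
    ((Matrix.GeneralLinearGroup.toLin.trans
      (LinearMap.GeneralLinearGroup.generalLinearEquiv (ZMod p) (Elem p j))).toEquiv).symm)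

omit [∀ k, Fintype (Cls p k)] in
theorem card_addAut_elem_cast (j : ℕ) :
    (Nat.card (AddAut (Elem p j)) : ℝ) = ∏ i ∈ Finset.range j, ((p : ℝ) ^ j - (p : ℝ) ^ i) := by
  rw [card_addAut_elem, Nat.cast_prod, ← Fin.prod_univ_eq_prod_range]
  refine Finset.prod_congr rfl fun i _ => ?_
  rw [Nat.cast_sub (Nat.pow_le_pow_right hp.out.pos i.2.le), Nat.cast_pow, Nat.cast_pow]

omit [∀ k, Fintype (Cls p k)] in
/-- `η p ^ (j ^ 2) ≤ |GL_j (𝔽_p)|`. -/
theorem eta_mul_le_card_addAut_elem (j : ℕ) :
    eta p * (p : ℝ) ^ (j * j) ≤ Nat.card (AddAut (Elem p j)) := by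
  have hp0 : (p : ℝ) ≠ 0 := Nat.cast_ne_zero.2 hp.out.ne_zero
  have hle : eta p ≤ ∏ i ∈ Finset.range j, (1 - (p : ℝ)⁻¹ ^ (i + 1)) := by
    refine le_of_tendsto (tendsto_prod_eta hp.out).1 (eventually_atTop.2 ⟨j, fun m hm => ?_⟩)
    refine Finset.prod_le_prod_of_subset_of_le_one (Finset.range_subset_range.2 hm)
      (fun i _ => (sub_pos.2 (inv_pow_lt_one hp.out i)).le) fun i _ _ =>
        sub_le_self _ (by positivity)
  refine (mul_le_mul_of_nonneg_right hle (by positivity)).trans (le_of_eq ?_)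
  rw [card_addAut_elem_cast, ← Finset.prod_range_reflect (fun i => (1 - (p : ℝ)⁻¹ ^ (i + 1))),
    show (p : ℝ) ^ (j * j) = ∏ _i ∈ Finset.range j, (p : ℝ) ^ j by
      rw [Finset.prod_const, Finset.card_range, pow_mul], ← Finset.prod_mul_distrib]
  refine Finset.prod_congr rfl fun i hi => ?_
  obtain ⟨d, hd⟩ := Nat.exists_eq_add_of_lt (Finset.mem_range.1 hi)
  rw [show j - 1 - i + 1 = d + 1 by omega, show j = i + (d + 1) by omega, pow_add, inv_pow]
  field_simp
  ring

omit [∀ k, Fintype (Cls p k)] in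
/-- The subgroups of index `p ^ j` containing the multiples of `p`. -/
theorem nonempty_quot_elem_iff (n j : ℕ) (M : AddSubgroup (Fin n → ℤ)) :
    (M.index = p ^ j ∧ ∀ v, p • v ∈ M) ↔ Nonempty ((Fin n → ℤ) ⧸ M ≃+ Elem p j) := by
  refine ⟨fun h => ?_, fun ⟨e⟩ => ⟨?_, fun v => ?_⟩⟩
  · haveI : Module (ZMod p) ((Fin n → ℤ) ⧸ M) := QuotientAddGroup.zmodModule h.2
    haveI : Finite ((Fin n → ℤ) ⧸ M) := Nat.finite_of_card_ne_zero (by
      rw [← AddSubgroup.index_eq_card, h.1]; exact pow_ne_zero j hp.out.ne_zero)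
    have hc := Module.natCard_eq_pow_finrank (K := ZMod p) (V := (Fin n → ℤ) ⧸ M)
    rw [← AddSubgroup.index_eq_card, h.1, Nat.card_zmod] at hc
    exact ⟨(LinearEquiv.ofFinrankEq ((Fin n → ℤ) ⧸ M) (Elem p j) (by
      rw [Module.finrank_fin_fun, Nat.pow_right_injective hp.out.two_le hc])).toAddEquiv⟩
  · rw [AddSubgroup.index_eq_card, Nat.card_congr e.toEquiv, card_elem]
  · rw [← QuotientAddGroup.eq_zero_iff, ← e.map_eq_zero_iff, ← QuotientAddGroup.mk'_apply,
      map_nsmul, map_nsmul]
    funext i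
    rw [Pi.smul_apply, nsmul_eq_mul, ZMod.natCast_self, zero_mul, Pi.zero_apply]

/-- **The weighted number of elementary extensions.** -/
theorem sum_elemSur_div_addAut (A : Type*) [AddCommGroup A] {a : ℕ} (hA : Nat.card A = p ^ a)
    (j : ℕ) :
    ∑ c : Cls p (a + j), (Nat.card (ElemSur p (Rep c) A) : ℝ) / Nat.card (AddAut (Rep c)) =
      1 / Nat.card (AddAut (Elem p j)) := by
  classical
  haveI : Finite A := Nat.finite_of_card_ne_zero (hA ▸ pow_ne_zero a hp.out.ne_zero)
  have h1 : Tendsto (fun n => ∑ c : Cls p (a + j),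
      (Nat.card (WithQuotient n (Rep c)) : ℝ) / (Nat.card (Rep c) : ℝ) ^ n *
        Nat.card (ElemSur p (Rep c) A)) atTop
      (𝓝 (∑ c : Cls p (a + j),
        (Nat.card (ElemSur p (Rep c) A) : ℝ) / Nat.card (AddAut (Rep c)))) := by
    refine tendsto_finsetSum _ fun c _ => ?_
    rw [← one_div_mul_eq_div]
    exact (tendsto_withQuotient (Rep c)).mul_const _
  refine tendsto_nhds_unique h1 ?_
  have h2 := (tendsto_card_sur A).mul (tendsto_withQuotient (Elem p j))
  rw [one_mul] at h2
  refine h2.congr fun n => ?_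
  haveI : Fintype (Sur (Fin n → ℤ) A) := Fintype.ofFinite _
  haveI : ∀ c : Cls p (a + j), Finite (QuotTo (Fin n → ℤ) (Rep c)) := fun c =>
    finite_withQuotient n _
  haveI : ∀ g : Sur (Fin n → ℤ) A, Finite (Below p (p ^ (a + j)) g) := fun g =>
    haveI : Finite (idxSet n (p ^ (a + j))) :=
      (finite_idxSet (pow_ne_zero _ hp.out.ne_zero)).to_subtype
    Finite.of_injective (fun L => (⟨L.1, L.2.1⟩ : idxSet n (p ^ (a + j))))
      fun x y e => Subtype.ext (congrArg Subtype.val e :)
  have hfib : ∀ g : Sur (Fin n → ℤ) A,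
      Nat.card (Below p (p ^ (a + j)) g) = Nat.card (WithQuotient n (Elem p j)) := fun g => by
    have hker : g.1.ker.index = p ^ a := by
      rw [AddSubgroup.index_eq_card,
        Nat.card_congr (QuotientAddGroup.quotientKerEquivOfSurjective g.1 g.2).toEquiv, hA]
    obtain ⟨e⟩ := nonempty_equiv_of_index g.1.ker (hker ▸ pow_ne_zero a hp.out.ne_zero)
    set ι := g.1.ker.subtype.comp e.toAddMonoidHom
    have hι : Function.Injective ι := Subtype.val_injective.comp e.injective
    have hrange : ι.range = g.1.ker := by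
      rw [AddMonoidHom.range_comp, AddMonoidHom.range_eq_top.2 e.surjective,
        ← AddMonoidHom.range_eq_map, AddSubgroup.range_subtype]
    have hmap : ∀ M : AddSubgroup (Fin n → ℤ), (M.map ι).index = M.index * p ^ a := fun M => by
      rw [AddSubgroup.index_map_of_injective M hι, hrange, hker]
    refine Nat.card_congr ⟨fun L => ⟨L.1.comap ι, (nonempty_quot_elem_iff p n j _).1 ⟨?_, ?_⟩⟩,
      fun M => ⟨M.1.map ι, ?_, hrange ▸ AddSubgroup.map_le_range ι M.1, ?_⟩, fun L => ?_,
      fun M => Subtype.ext (AddSubgroup.comap_map_eq_self_of_injective hι M.1)⟩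
    · have h := hmap (L.1.comap ι)
      rw [AddSubgroup.map_comap_eq, hrange, inf_eq_right.2 L.2.2.1, L.2.1] at h
      exact (Nat.eq_of_mul_eq_mul_left (pow_pos hp.out.pos a)
        ((pow_add p a j).symm.trans (h.trans (mul_comm _ _)))).symm
    · intro v
      rw [AddSubgroup.mem_comap, map_nsmul]
      exact L.2.2.2 _ (hrange ▸ ⟨v, rfl⟩)
    · rw [hmap, ((nonempty_quot_elem_iff p n j _).2 M.2).1, add_comm a, pow_add]
    · intro x hx
      rw [← hrange] at hx
      obtain ⟨v, rfl⟩ := hx
      exact ⟨p • v, ((nonempty_quot_elem_iff p n j _).2 M.2).2 v, map_nsmul ι p v⟩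
    · refine Subtype.ext ?_
      show (L.1.comap ι).map ι = L.1
      rw [AddSubgroup.map_comap_eq, hrange, inf_eq_right.2 L.2.2.1]
  have key := sum_card_mul_elem (p := p) (Fin n → ℤ) A (a + j)
  rw [Finset.sum_congr rfl fun g _ => hfib g, Finset.sum_const, Finset.card_univ, smul_eq_mul,
    ← Nat.card_eq_fintype_card] at key
  rw [div_mul_div_comm, ← Nat.cast_mul, ← key, Nat.cast_sum, Finset.sum_div, hA, card_elem]
  refine Finset.sum_congr rfl fun c _ => ?_
  rw [card_rep, Nat.cast_mul, Nat.cast_pow, Nat.cast_pow, Nat.cast_pow, ← mul_pow, ← pow_add,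
    div_mul_eq_mul_div]

end FA.CohenLenstra

end
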