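import Fermat.Agent.CohenLenstra.Counting
import Mathlib.GroupTheory.Perm.Cycle.Type
import Mathlib.Order.Atoms.Finite
import Mathlib.Data.Nat.Log

/-!
# Möbius inversion over the subgroups with elementary quotient

For a finite abelian `p`-group `K` the sum of `(-1) ^ j p ^ (j choose 2)` over the subgroups
`L ⊇ p K` of index `p ^ j` is `1` if `K` is trivial and `0` otherwise: for a subgroup `H` of index
`p` the subgroups with the same intersection with `H` cancel.
-/

set_option autoImplicit false
set_option linter.style.haveILetI false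

noncomputable section

open Finset

namespace FA.CohenLenstra

/-- The Möbius coefficient `(-1) ^ j p ^ (j choose 2)`. -/
def sgn (p j : ℕ) : ℝ := (-1) ^ j * (p : ℝ) ^ j.choose 2

theorem sgn_succ (p j : ℕ) : sgn p (j + 1) = -((p : ℝ) ^ j * sgn p j) := by
  rw [sgn, sgn, Nat.choose_succ_succ, Nat.choose_one_right, pow_succ, pow_add]
  ring

theorem abs_sgn (p j : ℕ) : |sgn p j| = (p : ℝ) ^ j.choose 2 := by
  rw [sgn, abs_mul, abs_pow, abs_neg, abs_one, one_pow, one_mul, abs_of_nonneg (by positivity)]

variable {p : ℕ} [hp : Fact p.Prime]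

/-- A nontrivial `p`-group has a subgroup of index `p`, and it contains the multiples of `p`. -/
theorem exists_index_eq_prime (K : Type*) [AddCommGroup K] [Finite K] {k : ℕ}
    (hK : Nat.card K = p ^ (k + 1)) :
    ∃ H : AddSubgroup K, H.index = p ∧ ∀ x : K, p • x ∈ H := by
  haveI : Nontrivial K := Finite.one_lt_card_iff_nontrivial.1 (by
    rw [hK]; exact Nat.one_lt_pow (by omega) hp.out.one_lt)
  obtain ⟨H, hH, -⟩ := (eq_top_or_exists_le_coatom (⊥ : AddSubgroup K)).resolve_left bot_ne_top
  have hidx : H.index = p := by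
    have hdvd : p ∣ Nat.card (K ⧸ H) := by
      rw [← AddSubgroup.index_eq_card]
      obtain ⟨i, -, hi⟩ := (Nat.dvd_prime_pow hp.out).1 (hK ▸ H.index_dvd_card)
      rw [hi]
      rcases Nat.eq_zero_or_pos i with rfl | hpos
      · exact absurd (AddSubgroup.index_eq_one.1 (by simpa using hi)) hH.1
      · exact dvd_pow_self p hpos.ne'
    obtain ⟨q, hq⟩ := exists_prime_addOrderOf_dvd_card' p hdvd
    have htop : (AddSubgroup.zmultiples q).comap (QuotientAddGroup.mk' H) = ⊤ := by
      refine hH.2 _ (lt_of_le_of_ne (fun x hx => ?_) fun he => ?_)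
      · rw [AddSubgroup.mem_comap, QuotientAddGroup.mk'_apply,
          (QuotientAddGroup.eq_zero_iff x).2 hx]
        exact zero_mem _
      · obtain ⟨x, rfl⟩ := QuotientAddGroup.mk'_surjective H q
        have : x ∈ H := he ▸ AddSubgroup.mem_comap.2 (AddSubgroup.mem_zmultiples _)
        rw [QuotientAddGroup.mk'_apply, (QuotientAddGroup.eq_zero_iff x).2 this,
          addOrderOf_zero] at hq
        exact hp.out.ne_one hq.symm
    have hz : AddSubgroup.zmultiples q = ⊤ := by
      rw [← AddSubgroup.map_comap_eq_self_of_surjective (QuotientAddGroup.mk'_surjective H)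
        (AddSubgroup.zmultiples q), htop,
        AddSubgroup.map_top_of_surjective _ (QuotientAddGroup.mk'_surjective H)]
    rw [AddSubgroup.index_eq_card, ← Nat.card_congr (AddSubgroup.topEquiv).toEquiv, ← hz,
      Nat.card_zmultiples, hq]
  exact ⟨H, hidx, fun x => hidx ▸ H.nsmul_index_mem x⟩

/-- **The Möbius sum** over the subgroups with elementary quotient. -/
theorem moebius_sum (K : Type*) [AddCommGroup K] [Finite K] [Fintype (AddSubgroup K)] {k : ℕ}
    (hK : Nat.card K = p ^ k) [DecidablePred fun L : AddSubgroup K => ∀ x : K, p • x ∈ L] :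
    ∑ L : AddSubgroup K with ∀ x : K, p • x ∈ L, sgn p (Nat.log p L.index) =
      if k = 0 then 1 else 0 := by
  classical
  cases k with
  | zero =>
    haveI : Subsingleton K := (Nat.card_eq_one_iff_unique.1 (by simpa using hK)).1
    haveI : Subsingleton (AddSubgroup K) := ⟨fun L M => AddSubgroup.ext fun x => by
      rw [Subsingleton.elim x 0]; simp [zero_mem]⟩
    rw [Finset.filter_true_of_mem
        fun L _ x => by rw [Subsingleton.elim (p • x) 0]; exact zero_mem L,
      Fintype.sum_subsingleton _ (⊤ : AddSubgroup K), AddSubgroup.index_top, if_pos rfl]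
    simp [sgn]
  | succ k =>
    rw [if_neg (Nat.succ_ne_zero k)]
    obtain ⟨H, hH, hpH⟩ := exists_index_eq_prime (p := p) K hK
    have hHtop : H ≠ ⊤ := fun h => hp.out.ne_one (by rw [← hH, h, AddSubgroup.index_top])
    obtain ⟨v, -, hv⟩ := SetLike.exists_of_lt (lt_top_iff_ne_top.2 hHtop)
    have hsup : ∀ L : AddSubgroup K, ¬ L ≤ H → H ⊔ L = ⊤ := fun L hL => by
      have h1 := AddSubgroup.relIndex_mul_index (le_sup_left (a := H) (b := L))
      rw [hH] at h1
      rcases (Nat.dvd_prime hp.out).1 (Dvd.intro_left _ h1) with h | h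
      · exact AddSubgroup.index_eq_one.1 h
      · rw [h] at h1
        exact absurd (le_sup_right.trans (AddSubgroup.relIndex_eq_one.1
          (Nat.eq_of_mul_eq_mul_right hp.out.pos (h1.trans (one_mul p).symm)))) hL
    refine (Finset.sum_fiberwise_of_maps_to
      (t := Finset.univ.filter fun L : AddSubgroup K => (∀ x : K, p • x ∈ L) ∧ L ≤ H)
      (g := fun L => L ⊓ H) (fun L hL => ?_) _).symm.trans (Finset.sum_eq_zero fun L' hL' => ?_)
    · rw [Finset.mem_filter] at hL ⊢
      exact ⟨Finset.mem_univ _, fun x => ⟨hL.2 x, hpH x⟩, inf_le_right⟩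
    obtain ⟨hpL', hL'H⟩ := (Finset.mem_filter.1 hL').2
    have hkey : ∀ c : ℤ, c • v ∈ H → ∀ x : K, c • x ∈ L' := fun c hc x => by
      by_contra hx
      have hndvd : ¬ (p : ℤ) ∣ c := fun ⟨d, hd⟩ => hx (by
        rw [hd, mul_smul, natCast_zsmul]
        exact hpL' _)
      obtain ⟨a, b, hab⟩ := ((Nat.prime_iff_prime_int.1 hp.out).coprime_iff_not_dvd.2 hndvd)
      refine hv ?_
      rw [← one_zsmul v, ← hab, add_smul, mul_smul, mul_smul, natCast_zsmul]
      exact add_mem (AddSubgroup.zsmul_mem _ (hpH v) a) (AddSubgroup.zsmul_mem _ hc b)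
    set φ : H ⧸ L'.addSubgroupOf H → AddSubgroup K := fun q =>
      L' ⊔ AddSubgroup.zmultiples (v + (q.out : K))
    have hφH : ∀ q, φ q ⊓ H = L' := fun q => le_antisymm (fun x hx => by
      obtain ⟨l, hl, y, hy, rfl⟩ := AddSubgroup.mem_sup.1 hx.1
      obtain ⟨c, rfl⟩ := AddSubgroup.mem_zmultiples_iff.1 hy
      refine add_mem hl (hkey c ?_ _)
      have : c • (v + (q.out : K)) - c • (q.out : K) ∈ H :=
        sub_mem ((add_mem_cancel_left (hL'H hl)).1 hx.2) (AddSubgroup.zsmul_mem _ q.out.2 c)
      rwa [← smul_sub, add_sub_cancel_right] at this) (le_inf le_sup_left hL'H)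
    have hφle : ∀ q, ¬ φ q ≤ H := fun q h => hv (by
      simpa using sub_mem (h (le_sup_right (a := L') (AddSubgroup.mem_zmultiples _))) q.out.2)
    have hinj : Function.Injective φ := fun q q' he => by
      obtain ⟨l, hl, y, hy, he'⟩ := AddSubgroup.mem_sup.1 (he.symm ▸
        (le_sup_right (a := L') (AddSubgroup.mem_zmultiples (v + (q'.out : K)))) :
          v + (q'.out : K) ∈ φ q)
      obtain ⟨c, rfl⟩ := AddSubgroup.mem_zmultiples_iff.1 hy
      have e1 : (c - 1) • v = (q'.out : K) - l - c • (q.out : K) := by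
        rw [sub_smul, one_zsmul]
        rw [smul_add] at he'
        linear_combination (norm := abel) he'
      have h1 : (c - 1) • v ∈ H := e1 ▸ sub_mem (sub_mem q'.out.2 (hL'H hl))
        (AddSubgroup.zsmul_mem _ q.out.2 c)
      rw [← Quotient.out_eq q, ← Quotient.out_eq q']
      refine QuotientAddGroup.eq.2 ?_
      rw [AddSubgroup.mem_addSubgroupOf]
      have : (-(q.out : K) + (q'.out : K)) = l + (c - 1) • (v + (q.out : K)) := by
        rw [sub_smul, one_zsmul]
        linear_combination (norm := abel) -he'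
      rw [AddSubgroup.coe_add, AddSubgroup.coe_neg, this]
      exact add_mem hl (hkey _ h1 _)
    haveI := Fintype.ofFinite (H ⧸ L'.addSubgroupOf H)
    have hfib : (Finset.univ.filter fun L : AddSubgroup K => ∀ x : K, p • x ∈ L).filter
        (fun L => L ⊓ H = L') = insert L' (Finset.univ.image φ) := by
      ext L
      simp only [Finset.mem_filter, Finset.mem_univ, true_and, Finset.mem_insert,
        Finset.mem_image]
      constructor
      · rintro ⟨-, rfl⟩
        by_cases hL : L ≤ H
        · exact .inl (inf_eq_left.2 hL).symm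
        refine .inr ?_
        obtain ⟨h, hh, l, hl, he⟩ := AddSubgroup.mem_sup.1
          ((hsup L hL).symm ▸ AddSubgroup.mem_top v : v ∈ H ⊔ L)
        set q : H ⧸ (L ⊓ H).addSubgroupOf H := QuotientAddGroup.mk ⟨-h, neg_mem hh⟩
        have hq : -(q.out : K) + -h ∈ L := by
          have := AddSubgroup.mem_addSubgroupOf.1 (QuotientAddGroup.eq.1 (Quotient.out_eq q))
          simpa using this.1
        have hmem : v + (q.out : K) ∈ L := by
          have : v + (q.out : K) = l - (-(q.out : K) + -h) := by rw [← he]; abel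
          exact this ▸ sub_mem hl hq
        refine ⟨q, le_antisymm (sup_le inf_le_left (AddSubgroup.zmultiples_le.2 hmem))
          fun x hx => ?_⟩
        obtain ⟨h1, hh1, y, hy, rfl⟩ := AddSubgroup.mem_sup.1
          ((hsup _ fun hle => hv (hle (AddSubgroup.mem_zmultiples v))).symm ▸
            AddSubgroup.mem_top x : x ∈ H ⊔ AddSubgroup.zmultiples v)
        obtain ⟨c, rfl⟩ := AddSubgroup.mem_zmultiples_iff.1 hy
        have : h1 + c • v = (h1 - c • (q.out : K)) + c • (v + (q.out : K)) := by
          rw [smul_add]; abel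
        rw [this]
        refine add_mem (le_sup_left (b := AddSubgroup.zmultiples _) (AddSubgroup.mem_inf.2 ⟨?_,
          sub_mem hh1 (AddSubgroup.zsmul_mem _ q.out.2 c)⟩))
          (le_sup_right (a := L ⊓ H) (AddSubgroup.zsmul_mem _ (AddSubgroup.mem_zmultiples _) c))
        have : h1 - c • (q.out : K) = (h1 + c • v) - c • (v + (q.out : K)) := by
          rw [smul_add]; abel
        exact this ▸ sub_mem hx (AddSubgroup.zsmul_mem _ hmem c)
      · rintro (rfl | ⟨q, rfl⟩)
        · exact ⟨hpL', inf_eq_left.2 hL'H⟩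
        · exact ⟨fun x => le_sup_left (b := AddSubgroup.zmultiples _) (hpL' x), hφH q⟩
    obtain ⟨i, -, hi⟩ := (Nat.dvd_prime_pow hp.out).1 (hK ▸ L'.index_dvd_card)
    have hrel := AddSubgroup.relIndex_mul_index hL'H
    obtain ⟨j, rfl⟩ : ∃ j, i = j + 1 := Nat.exists_eq_succ_of_ne_zero fun h0 => by
      rw [hi, h0, pow_zero, hH] at hrel
      exact hp.out.ne_one (Nat.eq_one_of_mul_eq_one_left hrel)
    rw [hi, hH, pow_succ] at hrel
    have hcard : Nat.card (H ⧸ L'.addSubgroupOf H) = p ^ j := by
      rw [← AddSubgroup.index_eq_card]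
      exact Nat.eq_of_mul_eq_mul_right hp.out.pos hrel
    have hidx : ∀ q, (φ q).index = p ^ j := fun q => by
      have h1 := AddSubgroup.relIndex_mul_index (inf_le_left (a := φ q) (b := H))
      rw [AddSubgroup.inf_relIndex_left, ← AddSubgroup.relIndex_sup_left, hsup _ (hφle q),
        AddSubgroup.relIndex_top_right, hφH q, hi, hH, pow_succ'] at h1
      exact Nat.eq_of_mul_eq_mul_left hp.out.pos h1
    rw [hfib, Finset.sum_insert (fun h => by
        obtain ⟨q, -, hq⟩ := Finset.mem_image.1 h
        exact hφle q (hq ▸ hL'H)), Finset.sum_image hinj.injOn,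
      Finset.sum_congr rfl fun q _ => by rw [hidx q], Finset.sum_const, Finset.card_univ,
      ← Nat.card_eq_fintype_card, hcard, hi, Nat.log_pow hp.out.one_lt,
      Nat.log_pow hp.out.one_lt, sgn_succ, nsmul_eq_mul, Nat.cast_pow]
    ring

end FA.CohenLenstra

end
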