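import Fermat.Agent.CohenLenstra.Inversion
import Mathlib.Analysis.Normed.Group.Tannery

/-!
# The moment problem for finite abelian `p`-groups

A nonnegative weight on the classes with surjection moments of polynomial growth is given by an
absolutely convergent series in its moments, so it is determined by them, and convergence of the
moments implies convergence of the weights.
-/

set_option autoImplicit false
set_option linter.style.haveILetI false

noncomputable section

open Finset Filter Topology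

namespace FA.CohenLenstra

variable (p : ℕ) [hp : Fact p.Prime] [∀ k, Fintype (Cls p k)]

omit hp [∀ k, Fintype (Cls p k)] in
theorem choose_two_double (j : ℕ) : 2 * j.choose 2 + j = j * j := by
  induction j with
  | zero => rfl
  | succ j ih =>
    rw [Nat.choose_succ_succ, Nat.choose_one_right]
    linarith

/-- The inverse matrix times a polynomial bound is summable. -/
theorem summable_beta (A : Type*) [AddCommGroup A] {a : ℕ} (hA : Nat.card A = p ^ a) (e : ℕ) :
    Summable fun y : Classes p => |beta p A a y| * ((p : ℝ) ^ y.1) ^ e := by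
  haveI : Finite A := Nat.finite_of_card_ne_zero (hA ▸ pow_ne_zero a hp.out.ne_zero)
  refine (summable_sigma_of_nonneg fun y => by positivity).2
    ⟨fun k => Summable.of_finite, (summable_nat_add_iff a).1 ?_⟩
  have hp1 : (1 : ℝ) < p := by exact_mod_cast hp.out.one_lt
  have heta := (tendsto_prod_eta hp.out).2
  refine Summable.of_nonneg_of_le (fun j => tsum_nonneg fun c => by positivity) (fun j => ?_)
    ((summable_geometric_of_lt_one (by positivity) (inv_lt_one_of_one_lt₀ hp1)).mul_left
      ((p : ℝ) ^ (a * e + (e + 1) * (e + 1)) / eta p))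
  rw [tsum_fintype, add_comm j a]
  have hval : ∀ c : Cls p (a + j), |beta p A a ⟨a + j, c⟩| * ((p : ℝ) ^ (a + j)) ^ e =
      (p : ℝ) ^ j.choose 2 * ((p : ℝ) ^ (a + j)) ^ e *
        ((Nat.card (ElemSur p (Rep c) A) : ℝ) / Nat.card (AddAut (Rep c))) := fun c => by
    rw [beta, abs_mul, abs_of_nonneg (a := (Nat.card _ : ℝ) / _) (by positivity),
      Nat.add_sub_cancel_left, abs_sgn]
    ring
  rw [Finset.sum_congr rfl fun c _ => hval c, ← Finset.mul_sum,
    sum_elemSur_div_addAut p A hA j]
  refine (mul_le_mul_of_nonneg_left (one_div_le_one_div_of_le (by positivity)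
    (eta_mul_le_card_addAut_elem p j)) (by positivity)).trans ?_
  rw [inv_pow, div_mul_eq_mul_div, mul_one_div, div_le_iff₀ (by positivity), ← pow_mul, ← pow_add]
  field_simp
  rw [← pow_add, ← pow_add]
  refine pow_le_pow_right₀ hp1.le ?_
  have := choose_two_double j
  nlinarith [two_mul_le_add_sq j (e + 1)]

omit [∀ k, Fintype (Cls p k)] in
/-- Surjections between representatives of the same order are isomorphisms. -/
theorem sur_rep_eq (x z : Classes p) :
    (if x.1 = z.1 then (Nat.card (Sur (Rep x.2) (Rep z.2)) : ℝ) else 0) =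
      ({z} : Set (Classes p)).indicator (fun _ => (Nat.card (AddAut (Rep z.2)) : ℝ)) x := by
  by_cases hxz : x = z
  · subst hxz
    rw [if_pos rfl, Set.indicator_of_mem (Set.mem_singleton _)]
    refine congrArg _ (Nat.card_congr (Equiv.ofBijective (fun f : Sur (Rep x.2) (Rep x.2) =>
      (AddEquiv.ofBijective f.1 ⟨Finite.injective_iff_surjective.2 f.2, f.2⟩ : AddAut (Rep x.2)))
      ⟨fun f g h => Subtype.ext (AddMonoidHom.ext fun y => DFunLike.congr_fun h y),
        fun e => ⟨⟨e.toAddMonoidHom, e.surjective⟩, AddEquiv.ext fun _ => rfl⟩⟩))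
  · rw [Set.indicator_of_notMem (show x ∉ ({z} : Set (Classes p)) from hxz)]
    split_ifs with h
    · haveI : IsEmpty (Sur (Rep x.2) (Rep z.2)) := ⟨fun f => hxz
        ((existsUnique_classes p (Rep z.2) (card_rep z.2)).unique
          ⟨AddEquiv.ofBijective f.1 (f.2.bijective_of_nat_card_le
            (by rw [card_rep, card_rep, h]))⟩ ⟨AddEquiv.refl _⟩)⟩
      rw [Nat.card_of_isEmpty, Nat.cast_zero]
    · rfl

/-- **The inversion formula.** -/
theorem hasSum_inversion {nu m : Classes p → ℝ} (hnu : ∀ x, 0 ≤ nu x)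
    (hm : ∀ y : Classes p,
      HasSum (fun x : Classes p => (Nat.card (Sur (Rep x.2) (Rep y.2)) : ℝ) * nu x) (m y))
    {C : ℝ} {e : ℕ} (hC : ∀ y : Classes p, m y ≤ C * ((p : ℝ) ^ y.1) ^ e) (z : Classes p) :
    HasSum (fun y => beta p (Rep z.2) z.1 y * m y) (Nat.card (AddAut (Rep z.2)) * nu z) := by
  set β := beta p (Rep z.2) z.1
  set F : Classes p × Classes p → ℝ := fun q =>
    β q.1 * ((Nat.card (Sur (Rep q.2.2) (Rep q.1.2)) : ℝ) * nu q.2)
  have hm0 : ∀ y, 0 ≤ m y := fun y =>
    (hm y).nonneg fun x => mul_nonneg (Nat.cast_nonneg _) (hnu x)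
  have habs : ∀ y x : Classes p, |F (y, x)| =
      |β y| * ((Nat.card (Sur (Rep x.2) (Rep y.2)) : ℝ) * nu x) := fun y x => by
    rw [abs_mul, abs_of_nonneg (mul_nonneg (Nat.cast_nonneg _) (hnu x))]
  have hF : Summable F := by
    refine Summable.of_abs ((summable_prod_of_nonneg fun q => abs_nonneg (F q)).2 ⟨fun y => ?_, ?_⟩)
    · simp only [habs]
      exact ((hm y).mul_left _).summable
    · simp only [habs, fun y => ((hm y).mul_left |β y|).tsum_eq]
      refine Summable.of_nonneg_of_le (fun y => mul_nonneg (abs_nonneg _) (hm0 y)) (fun y => ?_)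
        ((summable_beta p (Rep z.2) (card_rep z.2) e).mul_left C)
      exact (mul_le_mul_of_nonneg_left (hC y) (abs_nonneg _)).trans_eq (by ring)
  have h1 : HasSum (fun y => β y * m y) (∑' q, F q) :=
    hF.hasSum.prod_fiberwise fun y => (hm y).mul_left (β y)
  have hcol : ∀ x : Classes p, HasSum (fun y => F (y, x))
      (({z} : Set (Classes p)).indicator (fun _ => (Nat.card (AddAut (Rep z.2)) : ℝ)) x * nu x) :=
    fun x => by
      have h : HasSum (fun y : Classes p => (Nat.card (Sur (Rep x.2) (Rep y.2)) : ℝ) * β y)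
          (∑ y ∈ (Finset.range (x.1 + 1)).sigma (fun n => (Finset.univ : Finset (Cls p n))),
            (Nat.card (Sur (Rep x.2) (Rep y.2)) : ℝ) * β y) :=
        hasSum_sum_of_ne_finset_zero fun y hy => by
          haveI : IsEmpty (Sur (Rep x.2) (Rep y.2)) := ⟨fun f => hy (by
            have h := Nat.card_le_card_of_surjective f.1 f.2
            rw [card_rep, card_rep, Nat.pow_le_pow_iff_right hp.out.one_lt] at h
            simp only [Finset.mem_sigma, Finset.mem_range, Finset.mem_univ, and_true]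
            omega)⟩
          rw [Nat.card_of_isEmpty, Nat.cast_zero, zero_mul]
      rw [sum_sur_mul_beta p (Rep x.2) (Rep z.2) (card_rep x.2) (card_rep z.2), sur_rep_eq] at h
      exact (h.mul_right (nu x)).congr_fun fun y => by simp only [F]; ring
  have h2 := (((Equiv.prodComm (Classes p) (Classes p)).hasSum_iff).2 hF.hasSum).prod_fiberwise hcol
  have h3 : HasSum (fun x => ({z} : Set (Classes p)).indicator
      (fun _ => (Nat.card (AddAut (Rep z.2)) : ℝ)) x * nu x)
      (Nat.card (AddAut (Rep z.2)) * nu z) := by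
    convert hasSum_single z (fun x hx => ?_) using 1
    · rw [Set.indicator_of_mem (Set.mem_singleton z)]
    · rw [Set.indicator_of_notMem (show x ∉ ({z} : Set (Classes p)) from hx), zero_mul]
  rwa [← h2.unique h3]

/-- **Moments of polynomial growth determine the weights.** -/
theorem eq_of_moments {nu nu' m : Classes p → ℝ} (hnu : ∀ x, 0 ≤ nu x) (hnu' : ∀ x, 0 ≤ nu' x)
    (hm : ∀ y : Classes p,
      HasSum (fun x : Classes p => (Nat.card (Sur (Rep x.2) (Rep y.2)) : ℝ) * nu x) (m y))
    (hm' : ∀ y : Classes p,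
      HasSum (fun x : Classes p => (Nat.card (Sur (Rep x.2) (Rep y.2)) : ℝ) * nu' x) (m y))
    {C : ℝ} {e : ℕ} (hC : ∀ y : Classes p, m y ≤ C * ((p : ℝ) ^ y.1) ^ e) : nu = nu' :=
  funext fun z => mul_left_cancel₀ (Nat.cast_ne_zero.2 (card_addAut_pos _).ne')
    ((hasSum_inversion p hnu hm hC z).unique (hasSum_inversion p hnu' hm' hC z))

/-- **All moments one**: the Cohen–Lenstra measure is the only weight. -/
theorem eq_mu_of_moments_one {nu : Classes p → ℝ} (hnu : ∀ x, 0 ≤ nu x)
    (hm : ∀ y : Classes p,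
      HasSum (fun x : Classes p => (Nat.card (Sur (Rep x.2) (Rep y.2)) : ℝ) * nu x) 1) :
    nu = mu p :=
  eq_of_moments p (m := fun _ => 1) hnu (fun x => (mu_pos p x).le) hm
    (fun y => hasSum_sur p (Rep y.2) (card_rep y.2)) (C := 1) (e := 0) fun y => by simp

/-- **The method of moments.** -/
theorem tendsto_of_moments {ι : Type*} {l : Filter ι} {nu m : ι → Classes p → ℝ}
    (hnu : ∀ i x, 0 ≤ nu i x)
    (hm : ∀ i (y : Classes p),
      HasSum (fun x : Classes p => (Nat.card (Sur (Rep x.2) (Rep y.2)) : ℝ) * nu i x) (m i y))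
    {C : ℝ} {e : ℕ} (hC : ∀ i (y : Classes p), m i y ≤ C * ((p : ℝ) ^ y.1) ^ e)
    (hlim : ∀ y, Tendsto (fun i => m i y) l (𝓝 1)) (z : Classes p) :
    Tendsto (fun i => nu i z) l (𝓝 (mu p z)) := by
  set β := beta p (Rep z.2) z.1
  have hz : (Nat.card (AddAut (Rep z.2)) : ℝ) ≠ 0 := Nat.cast_ne_zero.2 (card_addAut_pos _).ne'
  have hmu := hasSum_inversion p (m := fun _ => (1 : ℝ)) (fun x => (mu_pos p x).le)
    (fun y => hasSum_sur p (Rep y.2) (card_rep y.2)) (C := 1) (e := 0) (fun y => by simp) z
  have h := tendsto_tsum_of_dominated_convergence (𝓕 := l)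
    (f := fun i y => β y * m i y) (g := fun y => β y * 1)
    (bound := fun y => C * (|β y| * ((p : ℝ) ^ y.1) ^ e))
    ((summable_beta p (Rep z.2) (card_rep z.2) e).mul_left C)
    (fun y => (hlim y).const_mul _) (Eventually.of_forall fun i y => by
      rw [Real.norm_eq_abs, abs_mul, abs_of_nonneg
        ((hm i y).nonneg fun x => mul_nonneg (Nat.cast_nonneg _) (hnu i x))]
      exact (mul_le_mul_of_nonneg_left (hC i y) (abs_nonneg _)).trans_eq (by ring))
  rw [hmu.tsum_eq] at h
  replace h := h.congr fun i => (hasSum_inversion p (hnu i) (hm i) (hC i) z).tsum_eq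
  simpa [mul_div_cancel_left₀, hz] using h.div_const (Nat.card (AddAut (Rep z.2)) : ℝ)

/-- **Euler's identity**, from the inversion at the trivial group. -/
theorem hasSum_euler :
    HasSum (fun j => (-1) ^ j * (p : ℝ) ^ j.choose 2 /
      ∏ i ∈ Finset.range j, ((p : ℝ) ^ j - (p : ℝ) ^ i)) (eta p) := by
  obtain ⟨c, -⟩ := existsUnique_cls (p := p) (k := 0) (ZMod 1) (by simp)
  set z : Classes p := ⟨0, c⟩
  have hz1 : Nat.card (Rep z.2) = 1 := by rw [card_rep, pow_zero]
  have h := hasSum_inversion p (m := fun _ => (1 : ℝ)) (fun x => (mu_pos p x).le)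
    (fun y => hasSum_sur p (Rep y.2) (card_rep y.2)) (C := 1) (e := 0) (fun y => by simp) z
  haveI : Subsingleton (Rep z.2) := (Nat.card_eq_one_iff_unique.1 hz1).1
  haveI : Unique (AddAut (Rep z.2)) :=
    ⟨⟨AddEquiv.refl _⟩, fun e => AddEquiv.ext fun a => Subsingleton.elim _ _⟩
  rw [mu_trivial p z hz1, Nat.card_unique, Nat.cast_one, one_mul] at h
  refine h.sigma fun j => ?_
  have key : ∀ m, m = 0 + j →
      ∑ d : Cls p m, (Nat.card (ElemSur p (Rep d) (Rep z.2)) : ℝ) / Nat.card (AddAut (Rep d)) =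
        1 / Nat.card (AddAut (Elem p j)) := by
    rintro m rfl
    exact sum_elemSur_div_addAut p (Rep z.2) (a := 0) (by rw [pow_zero, hz1]) j
  have hv : (-1 : ℝ) ^ j * (p : ℝ) ^ j.choose 2 /
      ∏ i ∈ Finset.range j, ((p : ℝ) ^ j - (p : ℝ) ^ i) =
        ∑ d : Cls p j, beta p (Rep z.2) z.1 ⟨j, d⟩ * 1 := by
    have hb : ∀ d : Cls p j, beta p (Rep z.2) z.1 ⟨j, d⟩ * 1 = sgn p j *
        ((Nat.card (ElemSur p (Rep d) (Rep z.2)) : ℝ) / Nat.card (AddAut (Rep d))) := fun d =>
      mul_one _
    rw [Finset.sum_congr rfl fun d _ => hb d, ← Finset.mul_sum, key j (Nat.zero_add j).symm,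
      card_addAut_elem_cast, mul_one_div, sgn]
  rw [hv]
  exact hasSum_fintype _

end FA.CohenLenstra

end
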