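import Fermat.Agent.CohenLenstra.Shifted
import Mathlib.LinearAlgebra.Matrix.NonsingularInverse
import Mathlib.LinearAlgebra.Matrix.ToLin

/-!
# Cokernels of random matrices

The columns of a uniform `n × m` matrix over `G = (ℤ / p ^ N) ^ n` are a uniform element of
`G ^ m`; the mean number of surjections of the cokernel to `H` is `#Sur (G, H) / |H| ^ m`, so the
method of moments gives the theorem of Friedman and Washington.
-/

set_option autoImplicit false
set_option linter.style.haveILetI false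

noncomputable section

open Finset Filter Topology

namespace FA.CohenLenstra

/-- The cokernel of a tuple. -/
abbrev Coker {G : Type*} [AddCommGroup G] {m : ℕ} (M : Fin m → G) :=
  G ⧸ AddSubgroup.closure (Set.range M)

/-- The surjections of a cokernel, counted over all tuples. -/
theorem sum_card_sur_coker (G H : Type*) [AddCommGroup G] [Fintype G] [AddCommGroup H] [Finite H]
    (m : ℕ) :
    (∑ M : Fin m → G, Nat.card (Sur (Coker M) H)) * Nat.card H ^ m =
      Nat.card (Sur G H) * Nat.card G ^ m := by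
  classical
  haveI : Finite (Sur G H) := finite_sur G H
  haveI := Fintype.ofFinite (Sur G H)
  have e : ∀ M : Fin m → G, Nat.card (Sur (Coker M) H) =
      Nat.card {f : Sur G H // ∀ i, f.1 (M i) = 0} := fun M => by
    refine Nat.card_congr (Equiv.ofBijective (fun f => ⟨⟨f.1.comp (QuotientAddGroup.mk' _),
      f.2.comp (QuotientAddGroup.mk'_surjective _)⟩, fun i => ?_⟩) ⟨fun f g h => ?_, fun f => ?_⟩)
    · show f.1 (QuotientAddGroup.mk' _ (M i)) = 0
      rw [QuotientAddGroup.mk'_apply,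
        (QuotientAddGroup.eq_zero_iff _).2 (AddSubgroup.subset_closure (Set.mem_range_self i)),
        map_zero]
    · refine Subtype.ext (AddMonoidHom.ext fun y => ?_)
      obtain ⟨v, rfl⟩ := QuotientAddGroup.mk'_surjective _ y
      exact DFunLike.congr_fun (congrArg (fun z => z.1.1) h) v
    · have hle : AddSubgroup.closure (Set.range M) ≤ f.1.1.ker :=
        (AddSubgroup.closure_le _).2 (by rintro _ ⟨i, rfl⟩; exact f.2 i)
      refine ⟨⟨QuotientAddGroup.lift _ f.1.1 hle, fun y => ?_⟩,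
        Subtype.ext (Subtype.ext (AddMonoidHom.ext fun v => rfl))⟩
      obtain ⟨v, rfl⟩ := f.1.2 y
      exact ⟨QuotientAddGroup.mk v, rfl⟩
  have hswap : ∑ M : Fin m → G, Nat.card {f : Sur G H // ∀ i, f.1 (M i) = 0} =
      ∑ f : Sur G H, Nat.card f.1.ker ^ m := by
    rw [← Nat.card_sigma, Finset.sum_congr rfl fun f _ => (show Nat.card f.1.ker ^ m =
      Nat.card (Fin m → f.1.ker) by rw [Nat.card_fun, Nat.card_fin]), ← Nat.card_sigma]
    exact Nat.card_congr ⟨fun x => ⟨x.2.1, fun i => ⟨x.1 i, x.2.2 i⟩⟩,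
      fun x => ⟨fun i => (x.2 i : G), x.1, fun i => (x.2 i).2⟩, fun _ => rfl, fun _ => rfl⟩
  rw [Finset.sum_congr rfl fun M _ => e M, hswap, Finset.sum_mul, Finset.sum_congr rfl
    fun f _ => (show Nat.card f.1.ker ^ m * Nat.card H ^ m = Nat.card G ^ m by
      rw [← mul_pow, ← f.1.ker.index_mul_card, AddSubgroup.index_eq_card,
        Nat.card_congr (QuotientAddGroup.quotientKerEquivOfSurjective f.1 f.2).toEquiv, mul_comm]),
    Finset.sum_const, Finset.card_univ, smul_eq_mul, Nat.card_eq_fintype_card (α := Sur G H)]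

variable (p : ℕ) [hp : Fact p.Prime]

/-- The law of the cokernel of a uniform tuple. -/
def cokerLaw (G : Type*) [AddCommGroup G] (m : ℕ) (x : Classes p) : ℝ :=
  (Nat.card {M : Fin m → G // Nonempty (Coker M ≃+ Rep x.2)} : ℝ) / (Nat.card G : ℝ) ^ m

omit hp in
theorem card_sur_le (n q : ℕ) (H : Type*) [AddCommGroup H] [Finite H] :
    Nat.card (Sur (Fin n → ZMod q) H) ≤ Nat.card H ^ n := by
  classical
  rw [← Nat.card_fin n, ← Nat.card_fun, Nat.card_fin]
  refine Nat.card_le_card_of_injective (fun f i => f.1 (Pi.single i 1)) fun f g h =>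
    Subtype.ext (AddMonoidHom.functions_ext _ _ _ fun i x => ?_)
  obtain ⟨k, rfl⟩ := ZMod.intCast_surjective x
  rw [show (Pi.single i (k : ZMod q) : Fin n → ZMod q) = k • Pi.single i 1 by
    rw [← Pi.single_smul, zsmul_one], map_zsmul, map_zsmul]
  exact congrArg _ (congrFun h i)

omit hp in
/-- Surjections from `(ℤ / q) ^ n` to a group killed by `q`. -/
theorem card_sur_zmod (n q : ℕ) (H : Type*) [AddCommGroup H] (hq : ∀ y : H, q • y = 0) :
    Nat.card (Sur (Fin n → ZMod q) H) = Nat.card (Sur (Fin n → ℤ) H) := by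
  set π : (Fin n → ℤ) →+ (Fin n → ZMod q) := (Int.castAddHom (ZMod q)).compLeft (Fin n)
  have hπ : Function.Surjective π := fun w =>
    ⟨fun i => (ZMod.intCast_surjective (w i)).choose, funext fun i =>
      (ZMod.intCast_surjective (w i)).choose_spec⟩
  refine Nat.card_congr (Equiv.ofBijective (fun f => ⟨f.1.comp π, f.2.comp hπ⟩)
    ⟨fun f g h => ?_, fun g => ?_⟩)
  · refine Subtype.ext (AddMonoidHom.ext fun w => ?_)
    obtain ⟨v, rfl⟩ := hπ w
    exact DFunLike.congr_fun (congrArg Subtype.val h) v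
  · have hle : π.ker ≤ g.1.ker := fun v hv => by
      have hd : ∀ i, (q : ℤ) ∣ v i := fun i => by
        rw [← ZMod.intCast_zmod_eq_zero_iff_dvd]
        exact congrFun hv i
      choose w hw using hd
      rw [AddMonoidHom.mem_ker, show v = q • w from funext fun i => by
        rw [Pi.smul_apply, nsmul_eq_mul]; exact hw i, map_nsmul]
      exact hq _
    set φ := (QuotientAddGroup.lift π.ker g.1 hle).comp
      (QuotientAddGroup.quotientKerEquivOfSurjective π hπ).symm.toAddMonoidHom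
    have hφ : ∀ v, φ (π v) = g.1 v := fun v => by
      have : (QuotientAddGroup.quotientKerEquivOfSurjective π hπ).symm (π v) =
          QuotientAddGroup.mk v := (AddEquiv.symm_apply_eq _).2 rfl
      simp [φ, this]
    refine ⟨⟨φ, fun y => ?_⟩, Subtype.ext (AddMonoidHom.ext hφ)⟩
    obtain ⟨v, rfl⟩ := g.2 y
    exact ⟨π v, hφ v⟩

/-- **The moments of the cokernel law.** -/
theorem hasSum_cokerLaw (G : Type*) [AddCommGroup G] {K : ℕ} (hG : Nat.card G = p ^ K) (m : ℕ)
    (H : Type*) [AddCommGroup H] [Finite H] :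
    HasSum (fun x : Classes p => (Nat.card (Sur (Rep x.2) H) : ℝ) * cokerLaw p G m x)
      ((Nat.card (Sur G H) : ℝ) / (Nat.card H : ℝ) ^ m) := by
  classical
  haveI : Finite G := Nat.finite_of_card_ne_zero (hG ▸ pow_ne_zero K hp.out.ne_zero)
  haveI := Fintype.ofFinite G
  have hcl : ∀ M : Fin m → G, ∃! x : Classes p, Nonempty (Rep x.2 ≃+ Coker M) := fun M => by
    obtain ⟨i, -, hi⟩ := (Nat.dvd_prime_pow hp.out).1
      (hG ▸ (AddSubgroup.closure (Set.range M)).index_dvd_card)
    exact existsUnique_classes p _ ((AddSubgroup.index_eq_card _).symm.trans hi)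
  choose cl hcl huniq using hcl
  have hcard : ∀ x : Classes p, Nat.card {M : Fin m → G // Nonempty (Coker M ≃+ Rep x.2)} =
      (Finset.univ.filter fun M => cl M = x).card := fun x => by
    rw [Nat.card_eq_fintype_card, Fintype.card_subtype]
    refine congrArg _ (Finset.filter_congr fun M _ => ⟨fun h => (huniq M x ⟨h.some.symm⟩).symm,
      fun h => h ▸ ⟨(hcl M).some.symm⟩⟩)
  have hval : ∑ x ∈ Finset.univ.image cl,
      (Nat.card (Sur (Rep x.2) H) : ℝ) * cokerLaw p G m x =
        (Nat.card (Sur G H) : ℝ) / (Nat.card H : ℝ) ^ m := by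
    have h1 : ∀ x : Classes p, (Nat.card (Sur (Rep x.2) H) : ℝ) * cokerLaw p G m x =
        (∑ M ∈ Finset.univ.filter (fun M => cl M = x), (Nat.card (Sur (Coker M) H) : ℝ)) /
          (Nat.card G : ℝ) ^ m := fun x => by
      rw [Finset.sum_congr rfl (g := fun _ => (Nat.card (Sur (Rep x.2) H) : ℝ)) (fun M hM => by
        obtain rfl := (Finset.mem_filter.1 hM).2
        rw [card_sur_congr (hcl M).some.symm]), Finset.sum_const, nsmul_eq_mul, cokerLaw,
        hcard x]
      ring
    have hH : (Nat.card H : ℝ) ^ m ≠ 0 := pow_ne_zero _ (Nat.cast_ne_zero.2 Nat.card_pos.ne')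
    have hG0 : (Nat.card G : ℝ) ^ m ≠ 0 := pow_ne_zero _ (Nat.cast_ne_zero.2 Nat.card_pos.ne')
    rw [Finset.sum_congr rfl fun x _ => h1 x, ← Finset.sum_div,
      Finset.sum_fiberwise_of_maps_to fun M hM => Finset.mem_image_of_mem cl hM,
      div_eq_div_iff hG0 hH]
    exact_mod_cast sum_card_sur_coker G H m
  rw [← hval]
  refine hasSum_sum_of_ne_finset_zero fun x hx => ?_
  have hempty : (Finset.univ.filter fun M => cl M = x) = ∅ :=
    Finset.filter_eq_empty_iff.2 fun M hM (h : cl M = x) => hx (h ▸ Finset.mem_image_of_mem cl hM)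
  rw [cokerLaw, hcard x, hempty, Finset.card_empty, Nat.cast_zero, zero_div, mul_zero]

/-- The law of the cokernel of an `n × (n + u)` matrix over `ℤ / p ^ N`. -/
abbrev matrixLaw (n u N : ℕ) : Classes p → ℝ := cokerLaw p (Fin n → ZMod (p ^ N)) (n + u)

/-- The moments of the matrix law. -/
theorem hasSum_matrixLaw (n u N : ℕ) (y : Classes p) :
    HasSum (fun x : Classes p => (Nat.card (Sur (Rep x.2) (Rep y.2)) : ℝ) * matrixLaw p n u N x)
      ((Nat.card (Sur (Fin n → ZMod (p ^ N)) (Rep y.2)) : ℝ) / ((p : ℝ) ^ y.1) ^ (n + u)) := by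
  have h := hasSum_cokerLaw p (Fin n → ZMod (p ^ N)) (K := N * n)
    (by rw [Nat.card_fun, Nat.card_zmod, Nat.card_fin, ← pow_mul]) (n + u) (Rep y.2)
  rwa [card_rep, Nat.cast_pow] at h

theorem matrixMoment_le (n u N : ℕ) (y : Classes p) :
    (Nat.card (Sur (Fin n → ZMod (p ^ N)) (Rep y.2)) : ℝ) / ((p : ℝ) ^ y.1) ^ (n + u) ≤ 1 := by
  have h := card_sur_le n (p ^ N) (Rep y.2)
  rw [card_rep] at h
  have hp1 : (1 : ℝ) ≤ p := by exact_mod_cast hp.out.one_lt.le
  refine div_le_one_of_le₀ ?_ (by positivity)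
  calc (Nat.card (Sur (Fin n → ZMod (p ^ N)) (Rep y.2)) : ℝ) ≤ ((p : ℝ) ^ y.1) ^ n := by
        exact_mod_cast h
    _ ≤ ((p : ℝ) ^ y.1) ^ (n + u) := pow_le_pow_right₀ (one_le_pow₀ hp1) (Nat.le_add_right n u)

theorem matrixMoment_eq {n u N : ℕ} {y : Classes p} (hN : y.1 ≤ N) :
    (Nat.card (Sur (Fin n → ZMod (p ^ N)) (Rep y.2)) : ℝ) / ((p : ℝ) ^ y.1) ^ (n + u) =
      (Nat.card (Sur (Fin n → ℤ) (Rep y.2)) : ℝ) / (Nat.card (Rep y.2) : ℝ) ^ n *
        (((p : ℝ) ^ y.1) ^ u)⁻¹ := by
  rw [card_sur_zmod n (p ^ N) (Rep y.2) (fun v => addOrderOf_dvd_iff_nsmul_eq_zero.1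
    ((addOrderOf_dvd_natCard v).trans (card_rep y.2 ▸ pow_dvd_pow p hN))), card_rep, Nat.cast_pow,
    pow_add, div_mul_eq_div_div, div_eq_mul_inv]

theorem matrixLaw_nonneg (n u N : ℕ) (x : Classes p) : 0 ≤ matrixLaw p n u N x := by
  rw [matrixLaw, cokerLaw]
  positivity

variable [∀ k, Fintype (Cls p k)]

/-- **Friedman–Washington.** -/
theorem tendsto_matrixLaw (u : ℕ) {ι : Type*} {l : Filter ι} {n N : ι → ℕ}
    (hn : Tendsto n l atTop) (hN : Tendsto N l atTop) (z : Classes p) :
    Tendsto (fun i => matrixLaw p (n i) u (N i) z) l (𝓝 (muShift p u z)) := by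
  refine tendsto_muShift p u (fun i x => matrixLaw_nonneg p _ _ _ x)
    (fun i y => hasSum_matrixLaw p (n i) u (N i) y) (C := 1) (e := 0)
    (fun i y => by simpa using matrixMoment_le p (n i) u (N i) y) (fun y => ?_) z
  have h := ((tendsto_card_sur (Rep y.2)).comp hn).mul_const (((p : ℝ) ^ y.1) ^ u)⁻¹
  rw [one_mul] at h
  refine h.congr' ?_
  filter_upwards [hN.eventually_ge_atTop y.1] with i hi
  exact (matrixMoment_eq p hi).symm

/-- **The limit for a fixed size.** -/
theorem tendsto_matrixLaw_fixed (n u : ℕ) (z : Classes p) :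
    Tendsto (fun N => matrixLaw p n u N z) atTop
      (𝓝 ((∑' y, beta p (Rep z.2) z.1 y * ((Nat.card (Sur (Fin n → ℤ) (Rep y.2)) : ℝ) /
        ((p : ℝ) ^ y.1) ^ (n + u))) / Nat.card (AddAut (Rep z.2)))) := by
  refine tendsto_inversion p (fun N x => matrixLaw_nonneg p _ _ _ x)
    (fun N y => hasSum_matrixLaw p n u N y) (C := 1) (e := 0)
    (fun N y => by simpa using matrixMoment_le p n u N y) (fun y => ?_) z
  refine tendsto_const_nhds.congr' ?_
  filter_upwards [eventually_ge_atTop y.1] with N hN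
  rw [card_sur_zmod n (p ^ N) (Rep y.2) (fun v => addOrderOf_dvd_iff_nsmul_eq_zero.1
    ((addOrderOf_dvd_natCard v).trans (card_rep y.2 ▸ pow_dvd_pow p hN)))]

omit [∀ k, Fintype (Cls p k)] in
/-- A square matrix is invertible iff its rows generate. -/
theorem isUnit_iff_closure_rows (n q : ℕ) (M : Matrix (Fin n) (Fin n) (ZMod q)) :
    IsUnit M ↔ AddSubgroup.closure (Set.range (M : Fin n → Fin n → ZMod q)) = ⊤ := by
  rw [← Matrix.vecMul_surjective_iff_isUnit, ← Matrix.coe_vecMulLinear, ← LinearMap.range_eq_top,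
    range_vecMulLinear]
  constructor
  · intro h
    refine eq_top_iff.2 fun v _ => ?_
    have hle : Submodule.span (ZMod q) (Set.range M.row) ≤
        AddSubgroup.toZModSubmodule q (AddSubgroup.closure (Set.range M.row)) :=
      Submodule.span_le.2 AddSubgroup.subset_closure
    exact hle (h ▸ Submodule.mem_top)
  · intro h
    refine eq_top_iff.2 fun v _ => ?_
    exact ((AddSubgroup.closure_le (Submodule.span (ZMod q) (Set.range M.row)).toAddSubgroup).2
      Submodule.subset_span) (h.symm ▸ AddSubgroup.mem_top v)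

/-- **Invertible matrices.** -/
theorem tendsto_isUnit {ι : Type*} {l : Filter ι} {n N : ι → ℕ}
    (hn : Tendsto n l atTop) (hN : Tendsto N l atTop) :
    Tendsto (fun i =>
      (Nat.card {M : Matrix (Fin (n i)) (Fin (n i)) (ZMod (p ^ N i)) // IsUnit M} : ℝ) /
        (p : ℝ) ^ (N i * n i * n i)) l (𝓝 (eta p)) := by
  obtain ⟨c, ⟨e⟩, -⟩ := existsUnique_cls (p := p) (k := 0) (ZMod 1) (by simp)
  have hz1 : Nat.card (Rep c) = 1 := by rw [card_rep, pow_zero]
  have h := tendsto_matrixLaw p 0 hn hN ⟨0, c⟩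
  have hmu : muShift p 0 ⟨0, c⟩ = eta p := by
    haveI : Subsingleton (Rep c) := (Nat.card_eq_one_iff_unique.1 hz1).1
    haveI : Unique (AddAut (Rep c)) :=
      ⟨⟨AddEquiv.refl _⟩, fun e => AddEquiv.ext fun a => Subsingleton.elim _ _⟩
    simp [muShift, etaShift]
  rw [hmu] at h
  refine h.congr fun i => ?_
  simp only [matrixLaw, cokerLaw, Nat.add_zero]
  rw [Nat.card_fun, Nat.card_zmod, Nat.card_fin, Nat.cast_pow, Nat.cast_pow, ← pow_mul, ← pow_mul]
  refine congrArg (fun a : ℕ => (a : ℝ) / (p : ℝ) ^ (N i * (n i * n i))) ?_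
    |>.trans (by rw [mul_assoc])
  refine Nat.card_congr (Equiv.subtypeEquivRight fun M => ?_)
  refine Iff.trans ?_ (isUnit_iff_closure_rows (n i) (p ^ N i) M).symm
  refine ⟨fun ⟨f⟩ => ?_, fun h => ?_⟩
  · rw [← AddSubgroup.index_eq_one, AddSubgroup.index_eq_card, Nat.card_congr f.toEquiv, hz1]
  · haveI : Subsingleton (Rep c) := (Nat.card_eq_one_iff_unique.1 hz1).1
    haveI : Subsingleton (Coker (G := Fin (n i) → ZMod (p ^ N i)) M) :=
      (Nat.card_eq_one_iff_unique.1 (by rw [← AddSubgroup.index_eq_card, h,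
        AddSubgroup.index_top])).1
    exact ⟨⟨⟨fun _ => 0, fun _ => 0, fun x => Subsingleton.elim _ _,
      fun x => Subsingleton.elim _ _⟩, fun _ _ => Subsingleton.elim _ _⟩⟩

end FA.CohenLenstra

end
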