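import Fermat.Agent.CohenLenstra.Moments

/-!
# The shifted Cohen–Lenstra measures and convergence to a general limit

The weights `η_u / (|A| ^ u |Aut A|)` with `η_u = η / ∏_{i ≤ u} (1 - p ^ (-i))` have total mass one
and surjection moments `|H| ^ (-u)`.
-/

set_option autoImplicit false
set_option linter.style.haveILetI false

noncomputable section

open Finset Filter Topology

namespace FA.CohenLenstra

/-- The shifted product `η_u`. -/
def etaShift (p u : ℕ) : ℝ := eta p / ∏ i ∈ Finset.range u, (1 - (p : ℝ)⁻¹ ^ (i + 1))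

variable (p : ℕ) [hp : Fact p.Prime]

theorem etaShift_pos (u : ℕ) : 0 < etaShift p u :=
  div_pos (tendsto_prod_eta hp.out).2 (prod_pos hp.out u)

/-- **The shifted series.** -/
theorem hasSum_layerMass_shift (u : ℕ) :
    HasSum (fun j => layerMass p j * ((p : ℝ)⁻¹ ^ u) ^ j) (etaShift p u)⁻¹ := by
  induction u with
  | zero => simpa [etaShift] using hasSum_layerMass hp.out
  | succ u ih =>
    set x : ℝ := (p : ℝ)⁻¹ ^ u
    have h1 := ((hasSum_nat_add_iff' 1).2 ih).sub (ih.mul_left ((p : ℝ)⁻¹ * x))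
    rw [← hasSum_nat_add_iff' 1]
    have hstep : ∀ j, layerMass p (j + 1) * ((p : ℝ)⁻¹ ^ (u + 1)) ^ (j + 1) =
        layerMass p (j + 1) * x ^ (j + 1) - (p : ℝ)⁻¹ * x * (layerMass p j * x ^ j) := fun j => by
      have hj := (sub_pos.2 (inv_pow_lt_one hp.out j)).ne'
      have hP := (prod_pos hp.out j).ne'
      have key : layerMass p (j + 1) * (1 - (p : ℝ)⁻¹ ^ (j + 1)) = (p : ℝ)⁻¹ * layerMass p j := by
        rw [layerMass, layerMass, Finset.prod_range_succ, ← div_div, div_mul_cancel₀ _ hj,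
          pow_succ']
        ring
      rw [pow_succ ((p : ℝ)⁻¹) u, mul_pow]
      linear_combination (-(x ^ (j + 1))) * key
    simp only [hstep]
    convert h1 using 1
    · simp only [x, Finset.sum_range_one, pow_zero, mul_one, etaShift, Finset.prod_range_succ,
        pow_succ (p : ℝ)⁻¹ u]
      have hu := (sub_pos.2 (inv_pow_lt_one hp.out u)).ne'
      rw [pow_succ] at hu
      have hP := (prod_pos hp.out u).ne'
      have he := (tendsto_prod_eta hp.out).2.ne'
      field_simp
      ring

/-- **The shifted weight.** -/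
def muShift (u : ℕ) (x : Classes p) : ℝ :=
  etaShift p u / (((p : ℝ) ^ x.1) ^ u * Nat.card (AddAut (Rep x.2)))

theorem muShift_pos (u : ℕ) (x : Classes p) : 0 < muShift p u x :=
  div_pos (etaShift_pos p u)
    (mul_pos (pow_pos (pow_pos (Nat.cast_pos.2 hp.out.pos) _) _)
      (Nat.cast_pos.2 (card_addAut_pos _)))

variable [∀ k, Fintype (Cls p k)]

/-- **The moments of the shifted weight.** -/
theorem hasSum_sur_shift (u : ℕ) (H : Type*) [AddCommGroup H] {h : ℕ}
    (hH : Nat.card H = p ^ h) :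
    HasSum (fun x : Classes p => (Nat.card (Sur (Rep x.2) H) : ℝ) * muShift p u x)
      ((((p : ℝ) ^ h) ^ u)⁻¹) := by
  set f : Classes p → ℝ := fun x => (Nat.card (Sur (Rep x.2) H) : ℝ) * muShift p u x
  set w : ℕ → ℝ := fun k => if h ≤ k then
    etaShift p u / ((p : ℝ) ^ k) ^ u * layerMass p (k - h) else 0
  have hlayer : ∀ k, ∑ c : Cls p k, f ⟨k, c⟩ = w k := fun k => by
    simp only [w]
    split_ifs with hk
    · obtain ⟨j, rfl⟩ := Nat.exists_eq_add_of_le hk
      rw [Nat.add_sub_cancel_left, ← sum_sur_div_addAut p H hH j, Finset.mul_sum]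
      refine Finset.sum_congr rfl fun c _ => ?_
      simp only [f, muShift]
      ring
    · refine Finset.sum_eq_zero fun c _ => ?_
      haveI : Finite H := Nat.finite_of_card_ne_zero (hH ▸ pow_ne_zero h hp.out.ne_zero)
      haveI : IsEmpty (Sur (Rep c) H) := ⟨fun g => by
        have := Nat.card_le_card_of_surjective g.1 g.2
        rw [hH, card_rep] at this
        exact hk ((Nat.pow_le_pow_iff_right hp.out.one_lt).1 this)⟩
      simp only [f]
      rw [Nat.card_of_isEmpty, Nat.cast_zero, zero_mul]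
  have hshift : HasSum w ((((p : ℝ) ^ h) ^ u)⁻¹) := by
    have h0 := (hasSum_layerMass_shift p u).mul_left (etaShift p u / ((p : ℝ) ^ h) ^ u)
    have e0 : etaShift p u / ((p : ℝ) ^ h) ^ u * (etaShift p u)⁻¹ = (((p : ℝ) ^ h) ^ u)⁻¹ := by
      have := (etaShift_pos p u).ne'
      field_simp
    rw [e0] at h0
    refine ((Function.Injective.hasSum_iff (g := fun j => h + j) (add_right_injective h) ?_).1 ?_)
    · intro k hk
      simp only [w]
      rw [if_neg (fun hle => hk ⟨k - h, Nat.add_sub_cancel' hle⟩)]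
    · refine h0.congr_fun fun j => ?_
      simp only [Function.comp_apply, w]
      rw [if_pos (Nat.le_add_right h j), Nat.add_sub_cancel_left, ← pow_mul, ← pow_mul, add_mul,
        pow_add, ← pow_mul, inv_pow, mul_comm u j]
      field_simp
  have hnn : ∀ x, 0 ≤ f x := fun x => mul_nonneg (Nat.cast_nonneg _) (muShift_pos p u x).le
  have hfib : ∀ k, ∑' c : Cls p k, f ⟨k, c⟩ = w k := fun k => by rw [tsum_fintype, hlayer]
  have hsum : Summable f := (summable_sigma_of_nonneg hnn).2
    ⟨fun k => Summable.of_finite, by simp only [hfib]; exact hshift.summable⟩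
  convert hsum.hasSum using 1
  rw [hsum.tsum_sigma]
  simp only [hfib]
  exact hshift.tsum_eq.symm

/-- **The shifted weights have total mass one.** -/
theorem hasSum_muShift (u : ℕ) : HasSum (muShift p u) 1 := by
  have h := hasSum_sur_shift p u (ZMod 1) (h := 0) (by simp)
  rw [pow_zero, one_pow, inv_one] at h
  convert h using 2 with x
  haveI : Unique (Sur (Rep x.2) (ZMod 1)) :=
    ⟨⟨⟨0, fun y => ⟨0, Subsingleton.elim _ _⟩⟩⟩,
      fun g => Subtype.ext (AddMonoidHom.ext fun y => Subsingleton.elim _ _)⟩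
  rw [Nat.card_unique, Nat.cast_one, one_mul]

/-- **Convergence of moments gives convergence to the inversion series.** -/
theorem tendsto_inversion {ι : Type*} {l : Filter ι} {nu m : ι → Classes p → ℝ}
    {m₀ : Classes p → ℝ} (hnu : ∀ i x, 0 ≤ nu i x)
    (hm : ∀ i (y : Classes p),
      HasSum (fun x : Classes p => (Nat.card (Sur (Rep x.2) (Rep y.2)) : ℝ) * nu i x) (m i y))
    {C : ℝ} {e : ℕ} (hC : ∀ i (y : Classes p), m i y ≤ C * ((p : ℝ) ^ y.1) ^ e)
    (hlim : ∀ y, Tendsto (fun i => m i y) l (𝓝 (m₀ y))) (z : Classes p) :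
    Tendsto (fun i => nu i z) l
      (𝓝 ((∑' y, beta p (Rep z.2) z.1 y * m₀ y) / Nat.card (AddAut (Rep z.2)))) := by
  set β := beta p (Rep z.2) z.1
  have hz : (Nat.card (AddAut (Rep z.2)) : ℝ) ≠ 0 := Nat.cast_ne_zero.2 (card_addAut_pos _).ne'
  have h := tendsto_tsum_of_dominated_convergence (𝓕 := l)
    (f := fun i y => β y * m i y) (g := fun y => β y * m₀ y)
    (bound := fun y => C * (|β y| * ((p : ℝ) ^ y.1) ^ e))
    ((summable_beta p (Rep z.2) (card_rep z.2) e).mul_left C)
    (fun y => (hlim y).const_mul _) (Eventually.of_forall fun i y => by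
      rw [Real.norm_eq_abs, abs_mul, abs_of_nonneg
        ((hm i y).nonneg fun x => mul_nonneg (Nat.cast_nonneg _) (hnu i x))]
      exact (mul_le_mul_of_nonneg_left (hC i y) (abs_nonneg _)).trans_eq (by ring))
  replace h := h.congr fun i => (hasSum_inversion p (hnu i) (hm i) (hC i) z).tsum_eq
  exact (h.div_const _).congr fun i => mul_div_cancel_left₀ _ hz

/-- **The method of moments** with the shifted limit. -/
theorem tendsto_muShift (u : ℕ) {ι : Type*} {l : Filter ι} {nu m : ι → Classes p → ℝ}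
    (hnu : ∀ i x, 0 ≤ nu i x)
    (hm : ∀ i (y : Classes p),
      HasSum (fun x : Classes p => (Nat.card (Sur (Rep x.2) (Rep y.2)) : ℝ) * nu i x) (m i y))
    {C : ℝ} {e : ℕ} (hC : ∀ i (y : Classes p), m i y ≤ C * ((p : ℝ) ^ y.1) ^ e)
    (hlim : ∀ y : Classes p, Tendsto (fun i => m i y) l (𝓝 ((((p : ℝ) ^ y.1) ^ u)⁻¹)))
    (z : Classes p) :
    Tendsto (fun i => nu i z) l (𝓝 (muShift p u z)) := by
  have hz : (Nat.card (AddAut (Rep z.2)) : ℝ) ≠ 0 := Nat.cast_ne_zero.2 (card_addAut_pos _).ne'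
  have hp1 : (1 : ℝ) ≤ p := by exact_mod_cast hp.out.one_lt.le
  have h0 := hasSum_inversion p (fun x => (muShift_pos p u x).le)
    (fun y => hasSum_sur_shift p u (Rep y.2) (card_rep y.2)) (C := 1) (e := 0)
    (fun y => by simpa using inv_le_one_of_one_le₀ (one_le_pow₀ (one_le_pow₀ hp1))) z
  have h := tendsto_inversion p hnu hm hC hlim z
  rwa [h0.tsum_eq, mul_div_cancel_left₀ _ hz] at h

end FA.CohenLenstra

end
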